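import Fermat.Agent.S29.FDFixed

/-!
# S52 / IRR, leaf L6b-Frob: a Frobenius element fixes, modulo `𝔪_𝒜`, everything congruent to an integer

API: `Fermat.Agent.S54.{nonunits_add, nonunits_mul_mem, nonunits_neg}`,
`Fermat.Agent.S29.FDFixed.{intCast_mem_nonunits_iff, intCast_mem, frob_sub_pow_mem}`.
`σ ξ - ξ = (σ ξ - ξ^ℓ) + (ξ^ℓ - z^ℓ) + (z^ℓ - z) + (z - ξ)`; `ξ - z ∣ ξ^ℓ - z^ℓ` with cofactor in `𝒜`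
(`sub_dvd_pow_sub_pow` in the ring `𝒜`, or `Commute.mul_geom_sum₂` + `Subring.sum_mem`); `ℓ ∣ z^ℓ - z`
(`ZMod.pow_card`, `ZMod.intCast_zmod_eq_zero_iff_dvd`).
-/

set_option autoImplicit false

namespace Fermat.Agent.S52.Irr

open Polynomial

local notation "Qb" => AlgebraicClosure ℚ

open Fermat.Agent.S54 Fermat.Agent.S29.FDFixed in
theorem frob_sub_mem (𝒜 : ValuationSubring Qb) {ℓ : ℕ} (hℓ : ℓ.Prime) (hA : 𝒜.LiesOverPrime ℓ)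
    (σ : Qb ≃ₐ[ℚ] Qb) (hσ : 𝒜.IsFrobeniusAt σ ℓ) (ξ : Qb) (hξ : ξ ∈ 𝒜) (z : ℤ)
    (h : (z : Qb) - ξ ∈ 𝒜.nonunits) : σ ξ - ξ ∈ 𝒜.nonunits := by
  have h1 : σ ξ - ξ ^ ℓ ∈ 𝒜.nonunits := frob_sub_pow_mem 𝒜 σ hσ ξ hξ
  have hzA : (z : Qb) ∈ 𝒜 := _root_.intCast_mem 𝒜 z
  have h2 : ξ ^ ℓ - (z : Qb) ^ ℓ ∈ 𝒜.nonunits := by
    obtain ⟨c, hc⟩ := sub_dvd_pow_sub_pow (⟨ξ, hξ⟩ : 𝒜) ⟨(z : Qb), hzA⟩ ℓ
    have hc' : ξ ^ ℓ - (z : Qb) ^ ℓ = (ξ - (z : Qb)) * (c : Qb) := by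
      have := congrArg (Subtype.val) hc
      simpa using this
    rw [hc']
    refine nonunits_mul_mem 𝒜 ?_ c.2
    have := nonunits_neg 𝒜 h
    rwa [neg_sub] at this
  have h3 : (z : Qb) ^ ℓ - (z : Qb) ∈ 𝒜.nonunits := by
    have h4 : (ℓ : ℤ) ∣ z ^ ℓ - z := by
      have : Fact ℓ.Prime := ⟨hℓ⟩
      rw [← ZMod.intCast_zmod_eq_zero_iff_dvd]
      push_cast
      rw [ZMod.pow_card, sub_self]
    have := (intCast_mem_nonunits_iff 𝒜 hℓ hA _).mpr h4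
    simpa using this
  have h5 : σ ξ - ξ = (σ ξ - ξ ^ ℓ) + (ξ ^ ℓ - (z : Qb) ^ ℓ) + ((z : Qb) ^ ℓ - (z : Qb))
      + ((z : Qb) - ξ) := by ring
  rw [h5]
  exact nonunits_add 𝒜 (nonunits_add 𝒜 (nonunits_add 𝒜 h1 h2) h3) h

end Fermat.Agent.S52.Irr
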