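import Fermat.Agent.S52.Irr.Lift

/-!
# S52 / IRR, leaf L6b-Sep: distinct roots of `Gq A0 B0` stay distinct modulo `𝔪_𝒜`

API: `Fermat.Agent.S54.{nonunits_add, nonunits_mul_mem, nonunits_neg}`,
`Fermat.Agent.S29.FDFixed.{intCast_mem_nonunits_iff, intCast_mem}`, `root_mem`.
`Gq_sub` with `x = η`, `y = ξ`: `0 = (η - ξ) * (dGq ξ + (η - ξ) * c)`; if `η ≠ ξ` then
`dGq ξ = -(η - ξ) * c ∈ nonunits` (`c ∈ 𝒜`), then `bezout` at `ξ` (with `Gq ξ = 0`) gives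
`((78732 * (4 A0³ + 27 B0²)²  : ℤ) : Qb) = V * dGq ξ ∈ nonunits`, `V ∈ 𝒜`, contradiction with `hdisc`
by `intCast_mem_nonunits_iff`.
-/

set_option autoImplicit false

namespace Fermat.Agent.S52.Irr

open Polynomial

local notation "Qb" => AlgebraicClosure ℚ

open Fermat.Agent.S54 Fermat.Agent.S29.FDFixed in
theorem root_eq_of_sub_mem (A0 B0 : ℤ) (𝒜 : ValuationSubring Qb) {ℓ : ℕ} (hℓ : ℓ.Prime)
    (hA : 𝒜.LiesOverPrime ℓ) (hdisc : ¬ (ℓ : ℤ) ∣ 78732 * (4 * A0 ^ 3 + 27 * B0 ^ 2) ^ 2)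
    (ξ η : Qb) (hξ : Gq (A0 : Qb) (B0 : Qb) ξ = 0) (hη : Gq (A0 : Qb) (B0 : Qb) η = 0)
    (h : η - ξ ∈ 𝒜.nonunits) : η = ξ := by
  by_contra hne
  have hξA : ξ ∈ 𝒜 := root_mem A0 B0 𝒜 ξ hξ
  have hηA : η ∈ 𝒜 := root_mem A0 B0 𝒜 η hη
  have hA0 : (A0 : Qb) ∈ 𝒜 := _root_.intCast_mem 𝒜 A0
  have hB0 : (B0 : Qb) ∈ 𝒜 := _root_.intCast_mem 𝒜 B0
  have hnat : ∀ n : ℕ, (n : Qb) ∈ 𝒜 := fun n => _root_.natCast_mem 𝒜 n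
  have h1 := Gq_sub (A0 : Qb) (B0 : Qb) η ξ
  rw [hξ, hη, sub_zero] at h1
  have h2 : dGq (A0 : Qb) (B0 : Qb) ξ
      + (η - ξ) * (η ^ 2 + 2 * η * ξ + 3 * ξ ^ 2 + 18 * (A0 : Qb)) = 0 := by
    rcases mul_eq_zero.mp h1.symm with h3 | h3
    · exact absurd (sub_eq_zero.mp h3) hne
    · exact h3
  have hc : η ^ 2 + 2 * η * ξ + 3 * ξ ^ 2 + 18 * (A0 : Qb) ∈ 𝒜 := by
    have e2 : (2 : Qb) ∈ 𝒜 := by exact_mod_cast hnat 2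
    have e3 : (3 : Qb) ∈ 𝒜 := by exact_mod_cast hnat 3
    have e18 : (18 : Qb) ∈ 𝒜 := by exact_mod_cast hnat 18
    exact add_mem (add_mem (add_mem (pow_mem hηA 2) (mul_mem (mul_mem e2 hηA) hξA))
      (mul_mem e3 (pow_mem hξA 2))) (mul_mem e18 hA0)
  have h3 : dGq (A0 : Qb) (B0 : Qb) ξ ∈ 𝒜.nonunits := by
    have : dGq (A0 : Qb) (B0 : Qb) ξ
        = -((η - ξ) * (η ^ 2 + 2 * η * ξ + 3 * ξ ^ 2 + 18 * (A0 : Qb))) := by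
      linear_combination h2
    rw [this]
    exact nonunits_neg 𝒜 (nonunits_mul_mem 𝒜 h hc)
  have h4 := bezout (A0 : Qb) (B0 : Qb) ξ
  rw [hξ, mul_zero, add_zero] at h4
  have hd : dq (A0 : Qb) (B0 : Qb) ξ ∈ 𝒜 := by
    have e9 : (9 : Qb) ∈ 𝒜 := by exact_mod_cast hnat 9
    have e27 : (27 : Qb) ∈ 𝒜 := by exact_mod_cast hnat 27
    exact add_mem (add_mem (pow_mem hξA 3) (mul_mem (mul_mem e9 hA0) hξA))
      (mul_mem e27 hB0)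
  have hm : mq (A0 : Qb) ξ ∈ 𝒜 := by
    have e3 : (3 : Qb) ∈ 𝒜 := by exact_mod_cast hnat 3
    exact add_mem (pow_mem hξA 2) (mul_mem e3 hA0)
  have hV : 16 * ξ ^ 3 * dq (A0 : Qb) (B0 : Qb) ξ ^ 2
      - 27 * mq (A0 : Qb) ξ ^ 3 * dq (A0 : Qb) (B0 : Qb) ξ + 27 * dq (A0 : Qb) (B0 : Qb) ξ ^ 3 ∈ 𝒜 := by
    have e16 : (16 : Qb) ∈ 𝒜 := by exact_mod_cast hnat 16
    have e27 : (27 : Qb) ∈ 𝒜 := by exact_mod_cast hnat 27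
    exact add_mem (sub_mem (mul_mem (mul_mem e16 (pow_mem hξA 3)) (pow_mem hd 2))
      (mul_mem (mul_mem e27 (pow_mem hm 3)) hd)) (mul_mem e27 (pow_mem hd 3))
  apply hdisc
  rw [← intCast_mem_nonunits_iff 𝒜 hℓ hA]
  push_cast
  rw [h4, mul_comm]
  exact nonunits_mul_mem 𝒜 h3 hV

end Fermat.Agent.S52.Irr
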