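import Fermat.Agent.S52.Irr.Sigma
import Fermat.Agent.S52.Irr.Sep
import Fermat.Agent.S52.Irr.Frob
import Fermat.Agent.FD.Main

/-!
# S52 / IRR, assembly L6: the good prime
-/

set_option autoImplicit false

namespace Fermat.Agent.S52.Irr

open Polynomial

local notation "Qb" => AlgebraicClosure ℚ

theorem pow_apply_of_fixed (σ : Qb ≃ₐ[ℚ] Qb) (ξ : Qb) (h : σ ξ = ξ) (b : ℕ) : (σ ^ b) ξ = ξ := by
  induction b with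
  | zero => simp
  | succ n ih => rw [pow_succ, AlgEquiv.mul_apply, h, ih]

theorem exists_good_prime (A0 B0 : ℤ) (hdisc : 4 * A0 ^ 3 + 27 * B0 ^ 2 ≠ 0) (r0 : ℤ)
    (hr0 : Gq A0 B0 r0 = 0) (N0 : ℤ) (hN0 : N0 ≠ 0) :
    ∃ p : ℕ, p.Prime ∧ ¬ (p : ℤ) ∣ N0 ∧ ∀ z : ℤ, (p : ℤ) ∣ Gq A0 B0 z →
      ∃ r : ℤ, Gq A0 B0 r = 0 ∧ (p : ℤ) ∣ z - r := by
  obtain ⟨g, hg⟩ := exists_sigma A0 B0 r0 hr0
  obtain ⟨Rt, -, hRt⟩ := exists_roots_finset A0 B0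
  let L : IntermediateField ℚ Qb := IntermediateField.adjoin ℚ (Rt : Set Qb)
  have hfin : FiniteDimensional ℚ L :=
    IntermediateField.finiteDimensional_adjoin
      (fun x _ => ((AlgebraicClosure.isAlgebraic ℚ).isAlgebraic x).isIntegral)
  have hB0 : (N0 * (78732 * (4 * A0 ^ 3 + 27 * B0 ^ 2) ^ 2)).natAbs ≠ 0 := by
    rw [Int.natAbs_ne_zero]
    exact mul_ne_zero hN0 (mul_ne_zero (by norm_num) (pow_ne_zero _ hdisc))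
  obtain ⟨ℓ, 𝒜, hℓ, hℓB, hA, ⟨σ, hσ⟩, hall⟩ :=
    Fermat.Agent.FD.exists_frobenius_pow_eq L _ hB0 g
  obtain ⟨⟨b, hb⟩, -⟩ := hall σ hσ
  have hℓB' : ¬ (ℓ : ℤ) ∣ N0 * (78732 * (4 * A0 ^ 3 + 27 * B0 ^ 2) ^ 2) := by
    intro h
    exact hℓB (Int.natCast_dvd.mp h)
  refine ⟨ℓ, hℓ, fun h => hℓB' (h.mul_right _), fun z hz => ?_⟩
  have hz' : ((Gq A0 B0 z : ℤ) : Qb) ∈ 𝒜.nonunits :=
    (Fermat.Agent.S29.FDFixed.intCast_mem_nonunits_iff 𝒜 hℓ hA _).mpr hz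
  obtain ⟨ξ, hξ, hzξ⟩ := exists_root_near A0 B0 𝒜 z hz'
  have hξA : ξ ∈ 𝒜 := root_mem A0 B0 𝒜 ξ hξ
  have h1 : σ ξ - ξ ∈ 𝒜.nonunits := frob_sub_mem 𝒜 hℓ hA σ hσ ξ hξA z hzξ
  have hσξ : Gq (A0 : Qb) (B0 : Qb) (σ ξ) = 0 := by
    have := congrArg σ hξ
    simpa [Gq, map_ofNat] using this
  have h2 : σ ξ = ξ :=
    root_eq_of_sub_mem A0 B0 𝒜 hℓ hA (fun h => hℓB' (h.mul_left _)) ξ (σ ξ) hξ hσξ h1
  have hξL : ξ ∈ L := IntermediateField.subset_adjoin ℚ _ (by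
    exact_mod_cast (hRt ξ).mpr hξ)
  have h3 : g ξ = ξ := by rw [← hb ξ hξL, pow_apply_of_fixed σ ξ h2 b]
  obtain ⟨r, hr⟩ := hg ξ hξ h3
  refine ⟨r, ?_, ?_⟩
  · rw [hr] at hξ
    have : ((Gq A0 B0 r : ℤ) : Qb) = 0 := by
      rw [← hξ]; simp [Gq]
    exact_mod_cast this
  · rw [hr] at hzξ
    rw [← Fermat.Agent.S29.FDFixed.intCast_mem_nonunits_iff 𝒜 hℓ hA]
    push_cast
    exact hzξ

end Fermat.Agent.S52.Irr
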