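import Fermat.Agent.S52.Irr.Near
import Fermat.Agent.S52.Irr.GoodPrime

/-!
# S52 / IRR, assembly L8: Hilbert irreducibility "lite" (abstract form)
-/

set_option autoImplicit false

namespace Fermat.Agent.S52.Irr

open Polynomial

theorem dGq_ne_zero (A B r : ℤ) (hdisc : 4 * A ^ 3 + 27 * B ^ 2 ≠ 0) (hr : Gq A B r = 0) :
    dGq A B r ≠ 0 := by
  intro h
  have h1 := bezout A B r
  rw [h, hr, mul_zero, mul_zero, add_zero] at h1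
  rcases mul_eq_zero.mp h1 with h2 | h2
  · norm_num at h2
  · exact hdisc (pow_eq_zero_iff (by norm_num) |>.mp h2)

theorem hit_lite (AP BP : ℤ[X]) (hA : AP.natDegree ≤ 20) (hB : BP.natDegree ≤ 30)
    (hdisc : 4 * (AP.eval 0) ^ 3 + 27 * (BP.eval 0) ^ 2 ≠ 0)
    (hno : ∀ (D : ℤ) (U : ℤ[X]), D ≠ 0 → Ghom AP BP U (C D) ≠ 0) (M : ℤ) (hM : M ≠ 0) :
    ∃ t : ℤ, M ∣ t ∧ ∀ z : ℤ, Gq (AP.eval t) (BP.eval t) z ≠ 0 := by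
  by_cases h0 : ∃ r0 : ℤ, Gq (AP.eval 0) (BP.eval 0) r0 = 0
  swap
  · push Not at h0
    exact ⟨0, dvd_zero _, h0⟩
  obtain ⟨r0, hr0⟩ := h0
  obtain ⟨Rt, hRt⟩ := exists_int_roots_finset (AP.eval 0) (BP.eval 0)
  have key : ∀ r : ℤ, ∃ N : ℤ, N ≠ 0 ∧ (Gq (AP.eval 0) (BP.eval 0) r = 0 →
      ∀ p : ℕ, p.Prime → ¬ (p : ℤ) ∣ N → ∃ E : ℕ, ∀ e : ℕ, E ≤ e → ∀ z : ℤ,
        Gq (AP.eval (M * (p : ℤ) ^ e)) (BP.eval (M * (p : ℤ) ^ e)) z = 0 → ¬ (p : ℤ) ∣ z - r) := by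
    intro r
    by_cases hr : Gq (AP.eval 0) (BP.eval 0) r = 0
    · obtain ⟨N, hN, h⟩ := per_root AP BP hA hB hno M hM r hr (dGq_ne_zero _ _ r hdisc hr)
      exact ⟨N, hN, fun _ => h⟩
    · exact ⟨1, one_ne_zero, fun h => absurd h hr⟩
  choose N hN hNp using key
  obtain ⟨p, hp, hpN, hgood⟩ := exists_good_prime _ _ hdisc r0 hr0 (∏ r ∈ Rt, N r)
    (Finset.prod_ne_zero_iff.mpr fun r _ => hN r)
  have key2 : ∀ r : ℤ, ∃ E : ℕ, Gq (AP.eval 0) (BP.eval 0) r = 0 → ∀ e : ℕ, E ≤ e → ∀ z : ℤ,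
        Gq (AP.eval (M * (p : ℤ) ^ e)) (BP.eval (M * (p : ℤ) ^ e)) z = 0 → ¬ (p : ℤ) ∣ z - r := by
    intro r
    by_cases hr : Gq (AP.eval 0) (BP.eval 0) r = 0
    · obtain ⟨E, hE⟩ := hNp r hr p hp
        (fun h => hpN (h.trans (Finset.dvd_prod_of_mem N ((hRt r).mpr hr))))
      exact ⟨E, fun _ => hE⟩
    · exact ⟨0, fun h => absurd h hr⟩
  choose E hE using key2
  refine ⟨M * (p : ℤ) ^ (Rt.sup E + 1), Dvd.intro _ rfl, fun z hz => ?_⟩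
  have h1 : (p : ℤ) ∣ Gq (AP.eval 0) (BP.eval 0) z :=
    dvd_Gq_zero AP BP p _ z ((dvd_pow_self _ (Nat.succ_ne_zero _)).mul_left _) hz
  obtain ⟨r, hr, hzr⟩ := hgood z h1
  exact hE r hr _ (le_trans (Finset.le_sup ((hRt r).mpr hr)) (Nat.le_succ _)) z hz hzr

end Fermat.Agent.S52.Irr
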