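import Fermat.Agent.S52.Irr.NoPolyUnit

/-!
# S52 / IRR, leaf L3c-Deg: no polynomial root (abstract form), second half

`m := mq A z = z² + 3A`, `d := dq A B z`.  By `Gq_eq`, `disc_eq` and `hz`:
  (i) `3 m² = 4 z d`,   (ii) `m³ - 2 d² = -54 κ Dp⁵`.
`d = C d₀`, `d₀ ≠ 0` (`isUnit_dq`, `Polynomial.isUnit_iff`).  `μ := m.natDegree`,
`δ := Dp.natDegree ≥ 4`.  (ii): `m³ = C (2 d₀²) - C (54 κ) Dp⁵` so `3 μ = 5 δ ≥ 20`
(`natDegree_pow`, `natDegree_C_mul`, `natDegree_sub_eq_right_of_natDegree_lt` or `natDegree_add_C`).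
(i): `z.natDegree = 2 μ`.  Then `(z²).natDegree = 4 μ ≥ 28 > 20 ≥ (3 A).natDegree`, so
`μ = (z² + 3A).natDegree = 4 μ` (`natDegree_add_eq_left_of_natDegree_lt`), contradiction.
-/

set_option autoImplicit false

namespace Fermat.Agent.S52.Irr

open Polynomial

variable {K : Type*} [Field K] [CharZero K]

theorem no_poly_root (A B Dp : K[X]) (κ : K) (hκ : κ ≠ 0)
    (hrel : 4 * A ^ 3 + 27 * B ^ 2 = C κ * Dp ^ 5) (hsq : Squarefree Dp) (hcop : IsCoprime A Dp)
    (hA : A.natDegree ≤ 20) (hD : 4 ≤ Dp.natDegree) (z : K[X]) : Gq A B z ≠ 0 := by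
  intro hz
  have hu := isUnit_dq A B Dp κ hκ hrel hsq hcop z hz
  have h1 : 3 * mq A z ^ 2 = 4 * z * dq A B z := by
    have := Gq_eq A B z; rw [hz] at this; linear_combination this
  have h2 : mq A z ^ 3 - 2 * dq A B z ^ 2 = -54 * (C κ * Dp ^ 5) := by
    have := disc_eq A B z; rw [hz, hrel] at this; linear_combination this
  have h3 : mq A z = z ^ 2 + 3 * A := by simp only [mq]
  generalize mq A z = m at h1 h2 h3
  obtain ⟨d₀, hd₀, hd⟩ := Polynomial.isUnit_iff.mp hu
  rw [← hd] at h1 h2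
  have hd₀' : d₀ ≠ 0 := hd₀.ne_zero
  have e2 : m ^ 3 = C (-54 * κ) * Dp ^ 5 + C (2 * d₀ ^ 2) := by
    simp only [map_mul, map_neg, map_ofNat, map_pow]; linear_combination h2
  have hμ : 3 * m.natDegree = 5 * Dp.natDegree := by
    have := congrArg natDegree e2
    rw [natDegree_pow, natDegree_add_C, natDegree_C_mul (mul_ne_zero (by norm_num) hκ),
      natDegree_pow] at this
    exact this
  have e1 : C 3 * m ^ 2 = C (4 * d₀) * z := by
    simp only [map_mul, map_ofNat]; linear_combination h1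
  have hzdeg : 2 * m.natDegree = z.natDegree := by
    have := congrArg natDegree e1
    rw [natDegree_C_mul (by norm_num), natDegree_C_mul (mul_ne_zero (by norm_num) hd₀'),
      natDegree_pow] at this
    exact this
  have hlt : (3 * A).natDegree < (z ^ 2).natDegree := by
    rw [natDegree_pow]
    have h20 : (3 * A).natDegree ≤ 20 := by
      have e : (3 * A : K[X]) = C 3 * A := by rw [map_ofNat]
      rw [e]; exact (natDegree_C_mul_le _ _).trans hA
    omega
  have hfin := natDegree_add_eq_left_of_natDegree_lt hlt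
  rw [← h3, natDegree_pow] at hfin
  omega

end Fermat.Agent.S52.Irr
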