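import Fermat.Agent.S52.Defs

/-!
# S52, chapter IRR: definitions and the small polynomial identities (all by `ring`)

`Gq A B z = z⁴ + 18 A z² + 108 B z - 27 A²` is the monic form of the 3-division polynomial of
`y² = x³ + A x + B` (`27 * psi3s A B x = Gq A B (3 x)`).
-/

set_option autoImplicit false

namespace Fermat.Agent.S52.Irr

open Polynomial

section defs

variable {R : Type*} [CommRing R]

/-- monic 3-division quartic (in `z = 3 x`). -/
def Gq (A B z : R) : R := z ^ 4 + 18 * A * z ^ 2 + 108 * B * z - 27 * A ^ 2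
/-- `∂ Gq / ∂ z`. -/
def dGq (A B z : R) : R := 4 * z ^ 3 + 36 * A * z + 108 * B
/-- homogenised form: `Ghom A B (d z) d = d⁴ Gq A B z`. -/
def Ghom (A B u d : R) : R :=
  u ^ 4 + 18 * A * d ^ 2 * u ^ 2 + 108 * B * d ^ 3 * u - 27 * A ^ 2 * d ^ 4
/-- `∂ Ghom / ∂ u`. -/
def dGhom (A B u d : R) : R := 4 * u ^ 3 + 36 * A * d ^ 2 * u + 108 * B * d ^ 3
/-- divided difference of `Ghom`. -/
def Qh (A B u₁ u₂ d : R) : R :=
  u₁ ^ 3 + u₁ ^ 2 * u₂ + u₁ * u₂ ^ 2 + u₂ ^ 3 + 18 * A * d ^ 2 * (u₁ + u₂) + 108 * B * d ^ 3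
/-- `3 (3 x² + A)` in `z = 3 x`. -/
def mq (A z : R) : R := z ^ 2 + 3 * A
/-- `27 (x³ + A x + B)` in `z = 3 x`. -/
def dq (A B z : R) : R := z ^ 3 + 9 * A * z + 27 * B

theorem Gq_eq (A B z : R) : Gq A B z = 4 * z * dq A B z - 3 * mq A z ^ 2 := by
  simp only [Gq, dq, mq]; ring

theorem dGq_eq (A B z : R) : dGq A B z = 4 * dq A B z := by
  simp only [dGq, dq]; ring

theorem disc_eq (A B z : R) :
    mq A z ^ 3 - 2 * dq A B z ^ 2 + (z ^ 2 + 9 * A) * Gq A B z = -54 * (4 * A ^ 3 + 27 * B ^ 2) := by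
  simp only [Gq, dq, mq]; ring

/-- Bezout identity between `Gq` and `dGq`. -/
theorem bezout (A B z : R) :
    78732 * (4 * A ^ 3 + 27 * B ^ 2) ^ 2 =
      (16 * z ^ 3 * dq A B z ^ 2 - 27 * mq A z ^ 3 * dq A B z + 27 * dq A B z ^ 3) * dGq A B z
      + (-3 * (4 * z * dq A B z) ^ 2 + 3 * (4 * z * dq A B z) * Gq A B z - Gq A B z ^ 2
          + 54 * mq A z ^ 3 * (z ^ 2 + 9 * A)
          + 27 * (-4 * dq A B z ^ 2 * (z ^ 2 + 9 * A) + (z ^ 2 + 9 * A) ^ 2 * Gq A B z))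
        * Gq A B z := by
  simp only [Gq, dGq, dq, mq]; ring

theorem Ghom_sub (A B u₁ u₂ d : R) :
    Ghom A B u₁ d - Ghom A B u₂ d = (u₁ - u₂) * Qh A B u₁ u₂ d := by
  simp only [Ghom, Qh]; ring

theorem Qh_diag (A B r d : R) : Qh A B (d * r) (d * r) d = d ^ 3 * dGq A B r := by
  simp only [Qh, dGq]; ring

theorem Ghom_mul (A B z d : R) : Ghom A B (d * z) d = d ^ 4 * Gq A B z := by
  simp only [Ghom, Gq]; ring

theorem Ghom_one (A B u : R) : Ghom A B u 1 = Gq A B u := by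
  simp only [Ghom, Gq]; ring

theorem Ghom_scale (A B l u d : R) : Ghom A B (l * u) (l * d) = l ^ 4 * Ghom A B u d := by
  simp only [Ghom]; ring

theorem dGhom_scale (A B l u d : R) : dGhom A B (l * u) (l * d) = l ^ 3 * dGhom A B u d := by
  simp only [dGhom]; ring

theorem dGhom_mul (A B r d : R) : dGhom A B (d * r) d = d ^ 3 * dGq A B r := by
  simp only [dGhom, dGq]; ring

theorem Ghom_add (A B u h d : R) :
    Ghom A B (u + h) d = Ghom A B u d + h * dGhom A B u d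
      + h ^ 2 * (6 * u ^ 2 + 4 * u * h + h ^ 2 + 18 * A * d ^ 2) := by
  simp only [Ghom, dGhom]; ring

/-- divided difference of `Gq`. -/
theorem Gq_sub (A B x y : R) :
    Gq A B x - Gq A B y = (x - y) * (dGq A B y + (x - y) * (x ^ 2 + 2 * x * y + 3 * y ^ 2 + 18 * A)) := by
  simp only [Gq, dGq]; ring

/-- the polynomial `-27 c4fam(t) ∈ R[t]`. -/
noncomputable def APoly (c₄ c₆ Δ : R) : R[X] := -27 * c4fam (C c₄) (C c₆) (C Δ) X
/-- the polynomial `-54 c6fam(t) ∈ R[t]`. -/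
noncomputable def BPoly (c₄ c₆ Δ : R) : R[X] := -54 * c6fam (C c₄) (C c₆) (C Δ) X
/-- the polynomial `Dfam(t) ∈ R[t]`. -/
noncomputable def DPoly (c₄ c₆ Δ : R) : R[X] := Dfam (C c₄) (C c₆) (C Δ) X

end defs

end Fermat.Agent.S52.Irr
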