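import Fermat.Agent.S52.Forms
import Fermat.Agent.S52.Irr.Defs

/-!
# S52 / IRR, leaf L3a-Grad

* `grad_no_common_zero`: `DformU u v = v (v¹⁰ - 66 u⁵v⁵ - 11 u¹⁰)`,
  `DformV u v = u (11 v¹⁰ - 66 u⁵v⁵ - u¹⁰)`.  If `v = 0` then `DformV = -u¹¹`; if `u = 0` then
  `DformU = v¹¹`.  Otherwise with `x = u⁵, y = v⁵`: `y² - 66xy - 11x² = 0 = 11y² - 66xy - x²`;
  subtract: `x² = -y²`; then `12 y² = 66 x y`, `2 y = 11 x`, `4 y² = 121 x² = -121 y²`, `125 y² = 0`.
* `derivative_Dform`: chain rule, by
  `simp only [Dform, DformU, DformV, derivative_mul, derivative_pow, derivative_sub, ...]; ring`.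
-/

set_option autoImplicit false

namespace Fermat.Agent.S52.Irr

open Polynomial

theorem grad_no_common_zero {k : Type*} [Field k] [CharZero k] (u v : k)
    (hU : DformU u v = 0) (hV : DformV u v = 0) : u = 0 ∧ v = 0 := by
  by_cases hv : v = 0
  · subst hv
    refine ⟨?_, rfl⟩
    have : u ^ 11 = 0 := by
      unfold DformV at hV; linear_combination -hV
    exact pow_eq_zero_iff (by norm_num) |>.1 this
  by_cases hu : u = 0
  · subst hu
    exfalso
    apply hv
    have : v ^ 11 = 0 := by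
      unfold DformU at hU; linear_combination hU
    exact pow_eq_zero_iff (by norm_num) |>.1 this
  exfalso
  have h1 : v ^ 10 - 66 * u ^ 5 * v ^ 5 - 11 * u ^ 10 = 0 := by
    have : v * (v ^ 10 - 66 * u ^ 5 * v ^ 5 - 11 * u ^ 10) = 0 := by
      unfold DformU at hU; linear_combination hU
    exact (mul_eq_zero.1 this).resolve_left hv
  have h2 : 11 * v ^ 10 - 66 * u ^ 5 * v ^ 5 - u ^ 10 = 0 := by
    have : u * (11 * v ^ 10 - 66 * u ^ 5 * v ^ 5 - u ^ 10) = 0 := by
      unfold DformV at hV; linear_combination hV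
    exact (mul_eq_zero.1 this).resolve_left hu
  have hv5 : v ^ 5 ≠ 0 := pow_ne_zero _ hv
  -- `x² = - y²`
  have h3 : u ^ 10 = -v ^ 10 := by linear_combination (1 / 10 : k) * h2 - (1 / 10 : k) * h1
  -- `2 y = 11 x`
  have h4 : 2 * v ^ 5 = 11 * u ^ 5 := by
    apply mul_left_cancel₀ hv5
    linear_combination (1 / 6 : k) * h1 + (11 / 6 : k) * h3
  have h5 : (125 : k) * (v ^ 5) ^ 2 = 0 := by
    linear_combination (2 * v ^ 5 + 11 * u ^ 5) * h4 + 121 * h3
  rcases mul_eq_zero.1 h5 with h | h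
  · norm_num at h
  · exact hv5 (pow_eq_zero_iff (by norm_num) |>.1 h)

theorem derivative_Dform {R : Type*} [CommRing R] (U V : R[X]) :
    derivative (Dform U V) = DformU U V * derivative U + DformV U V * derivative V := by
  simp only [Dform, DformU, DformV, derivative_mul, derivative_pow, derivative_sub,
    derivative_ofNat, zero_mul, zero_add, map_natCast]
  push_cast
  ring

end Fermat.Agent.S52.Irr
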