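import Fermat.Agent.S52.Irr.Defs

/-!
# S52 / IRR, leaf E-Poly: the polynomials `APoly, BPoly, DPoly ∈ R[t]`
-/

set_option autoImplicit false

namespace Fermat.Agent.S52.Irr

open Polynomial

variable {R S : Type*} [CommRing R] [CommRing S]

theorem map_c4fam (f : R →+* S) (a b c t : R) :
    f (c4fam a b c t) = c4fam (f a) (f b) (f c) (f t) := by
  simp only [c4fam, map_add, map_mul, map_pow, map_neg, map_ofNat, map_one]

theorem map_c6fam (f : R →+* S) (a b c t : R) :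
    f (c6fam a b c t) = c6fam (f a) (f b) (f c) (f t) := by
  simp only [c6fam, map_add, map_mul, map_pow, map_neg, map_ofNat, map_one]

theorem map_Dfam (f : R →+* S) (a b c t : R) :
    f (Dfam a b c t) = Dfam (f a) (f b) (f c) (f t) := by
  simp only [Dfam, map_add, map_mul, map_pow, map_neg, map_ofNat, map_one]

theorem eval_APoly (c₄ c₆ Δ t : R) : (APoly c₄ c₆ Δ).eval t = -27 * c4fam c₄ c₆ Δ t := by
  have h := map_c4fam (evalRingHom t) (C c₄) (C c₆) (C Δ) X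
  simp only [coe_evalRingHom, eval_C, eval_X] at h
  rw [APoly, eval_mul, h]
  simp

theorem eval_BPoly (c₄ c₆ Δ t : R) : (BPoly c₄ c₆ Δ).eval t = -54 * c6fam c₄ c₆ Δ t := by
  have h := map_c6fam (evalRingHom t) (C c₄) (C c₆) (C Δ) X
  simp only [coe_evalRingHom, eval_C, eval_X] at h
  rw [BPoly, eval_mul, h]
  simp

theorem eval_DPoly (c₄ c₆ Δ t : R) : (DPoly c₄ c₆ Δ).eval t = Dfam c₄ c₆ Δ t := by
  have h := map_Dfam (evalRingHom t) (C c₄) (C c₆) (C Δ) X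
  simp only [coe_evalRingHom, eval_C, eval_X] at h
  rw [DPoly, h]

theorem map_APoly (f : R →+* S) (c₄ c₆ Δ : R) :
    (APoly c₄ c₆ Δ).map f = APoly (f c₄) (f c₆) (f Δ) := by
  have h := map_c4fam (mapRingHom f) (C c₄) (C c₆) (C Δ) X
  simp only [coe_mapRingHom, map_C, map_X] at h
  rw [APoly, Polynomial.map_mul, h, APoly]
  simp

theorem map_BPoly (f : R →+* S) (c₄ c₆ Δ : R) :
    (BPoly c₄ c₆ Δ).map f = BPoly (f c₄) (f c₆) (f Δ) := by
  have h := map_c6fam (mapRingHom f) (C c₄) (C c₆) (C Δ) X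
  simp only [coe_mapRingHom, map_C, map_X] at h
  rw [BPoly, Polynomial.map_mul, h, BPoly]
  simp

theorem map_DPoly (f : R →+* S) (c₄ c₆ Δ : R) :
    (DPoly c₄ c₆ Δ).map f = DPoly (f c₄) (f c₆) (f Δ) := by
  have h := map_Dfam (mapRingHom f) (C c₄) (C c₆) (C Δ) X
  simp only [coe_mapRingHom, map_C, map_X] at h
  rw [DPoly, h, DPoly]

theorem natDegree_APoly_le (c₄ c₆ Δ : R) : (APoly c₄ c₆ Δ).natDegree ≤ 20 := by
  unfold APoly c4fam
  compute_degree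

theorem natDegree_BPoly_le (c₄ c₆ Δ : R) : (BPoly c₄ c₆ Δ).natDegree ≤ 30 := by
  unfold BPoly c6fam
  compute_degree

theorem polyFam_DPoly_eq (c₄ c₆ Δ : R) : DPoly c₄ c₆ Δ =
    C 1 + C (-66 * c₄) * X ^ 2 + C (440 * c₆) * X ^ 3 + C (-1485 * c₄ ^ 2) * X ^ 4
    + C (3168 * c₄ * c₆) * X ^ 5 + C (-4620 * c₄ ^ 3 + 18247680 * Δ) * X ^ 6
    + C (4752 * c₄ ^ 2 * c₆) * X ^ 7 + C (-3465 * c₄ ^ 4 + -109486080 * Δ * c₄) * X ^ 8
    + C (1760 * c₄ ^ 3 * c₆ + 243302400 * Δ * c₆) * X ^ 9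
    + C (-594 * c₄ ^ 5 + -229920768 * Δ * c₄ ^ 2) * X ^ 10
    + C (120 * c₄ ^ 4 * c₆ + 106168320 * Δ * c₄ * c₆) * X ^ 11
    + C (-11 * c₄ ^ 6 + -19464192 * Δ * c₄ ^ 3 + 305764761600 * Δ ^ 2) * X ^ 12 := by
  simp only [DPoly, Dfam, map_mul, map_add, map_pow, map_neg, map_ofNat, map_one]

theorem coeff_DPoly_four (c₄ c₆ Δ : R) : (DPoly c₄ c₆ Δ).coeff 4 = -1485 * c₄ ^ 2 := by
  rw [polyFam_DPoly_eq]
  simp only [coeff_add, coeff_C_mul, coeff_X_pow, coeff_C]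
  norm_num

theorem coeff_DPoly_six (c₄ c₆ Δ : R) :
    (DPoly c₄ c₆ Δ).coeff 6 = -4620 * c₄ ^ 3 + 18247680 * Δ := by
  rw [polyFam_DPoly_eq]
  simp only [coeff_add, coeff_C_mul, coeff_X_pow, coeff_C]
  norm_num

/-- from the two coefficients. -/
theorem four_le_natDegree_DPoly {K : Type*} [Field K] [CharZero K] (c₄ c₆ Δ : K) (hΔ : Δ ≠ 0) :
    4 ≤ (DPoly c₄ c₆ Δ).natDegree := by
  by_cases h4 : c₄ = 0
  · refine le_trans (by norm_num) (le_natDegree_of_ne_zero (n := 6) ?_)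
    rw [coeff_DPoly_six, h4]
    simpa using hΔ
  · refine le_natDegree_of_ne_zero ?_
    rw [coeff_DPoly_four]
    exact mul_ne_zero (by norm_num) (pow_ne_zero _ h4)

end Fermat.Agent.S52.Irr
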