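import Fermat.Agent.S52.Irr.FamFacts
import Fermat.Agent.S52.Irr.Grad
import Fermat.Agent.S52.Irr.PolyFam

/-!
# S52 / IRR, leaf L3a-Der: the zeros of `Dfam` (in `t`) are simple

`k` algebraically closed of characteristic 0, `(u, v)` from `exists_uv`, `D₀ := Dform u v ≠ 0`,
`a := -DformV u v`, `b := DformU u v`, `U₁ := u + t a`, `V₁ := v + t b`.
`expand_D` in `R = k[X]` at `(C u, C v, X)` gives `Dform Up Vp = C D₀ * DPoly c₄ c₆ Δ` with
`Up = C u - X * DformV (C u) (C v)`, `Vp = C v + X * DformU (C u) (C v)` (push `C` through the forms: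
`simp [c4form, c6form, Dform, DformU, DformV]`, i.e. `DformV (C u) (C v) = C (DformV u v)` etc.).
`derivative_Dform` and evaluation at `t`:
`D₀ * (derivative DPoly).eval t = DformU U₁ V₁ * a + DformV U₁ V₁ * b`.  Suppose this is `0`.  Also
`Dform U₁ V₁ = D₀ * Dfam .. t = 0`, so `euler`: `U₁ * DformU U₁ V₁ + V₁ * DformV U₁ V₁ = 0`.  The
determinant is `a * V₁ - b * U₁ = a v - b u = -12 D₀ ≠ 0`, so both partials vanish at `(U₁, V₁)`, so
`U₁ = V₁ = 0` by `grad_no_common_zero`, and then the determinant would be `0`.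
-/

set_option autoImplicit false

namespace Fermat.Agent.S52.Irr

open Polynomial

theorem derivative_DPoly_eval_ne_zero {k : Type*} [Field k] [IsAlgClosed k] [CharZero k]
    (c₄ c₆ Δ t : k) (hrel : c₄ ^ 3 - c₆ ^ 2 = 1728 * Δ) (hΔ : Δ ≠ 0) (hD : Dfam c₄ c₆ Δ t = 0) :
    (derivative (DPoly c₄ c₆ Δ)).eval t ≠ 0 := by
  intro hder
  obtain ⟨u, v, e4, e6, eD⟩ := exists_uv c₄ c₆ Δ hrel hΔ
  have hD0 : Dform u v ≠ 0 := by
    intro h
    apply hΔ
    rw [← eD, h]; ring
  -- the polynomial identity
  have hC4 : c4form (C u) (C v) = C c₄ := by rw [← e4, Expand.c4form_map (C : k →+* k[X])]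
  have hC6 : c6form (C u) (C v) = C c₆ := by rw [← e6, Expand.c6form_map (C : k →+* k[X])]
  have hCD : Dform (C u) (C v) = C (Dform u v) := by rw [Expand.Dform_map (C : k →+* k[X])]
  have hCU : DformU (C u) (C v) = C (DformU u v) := by rw [Expand.DformU_map (C : k →+* k[X])]
  have hCV : DformV (C u) (C v) = C (DformV u v) := by rw [Expand.DformV_map (C : k →+* k[X])]
  have hpoly := expand_D (C u) (C v) (X : k[X])
  rw [hC4, hC6, hCD, hCU, hCV, ← C_pow, eD] at hpoly
  have hpoly' : Dform (C u - X * C (DformV u v)) (C v + X * C (DformU u v))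
      = C (Dform u v) * DPoly c₄ c₆ Δ := hpoly
  have hd := congrArg (fun p => (derivative p).eval t) hpoly'
  simp only [derivative_Dform, derivative_mul, derivative_C, derivative_sub, derivative_add,
    derivative_X, zero_mul, zero_add, zero_sub, one_mul, mul_zero, add_zero, eval_add, eval_mul,
    eval_C, eval_neg, hder] at hd
  set U₁ := u - t * DformV u v with hU₁
  set V₁ := v + t * DformU u v with hV₁
  have eU : (DformU (C u - X * C (DformV u v)) (C v + X * C (DformU u v))).eval t
      = DformU U₁ V₁ := by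
    have := Expand.DformU_map (evalRingHom t) (C u - X * C (DformV u v)) (C v + X * C (DformU u v))
    simp only [coe_evalRingHom, eval_sub, eval_add, eval_mul, eval_C, eval_X] at this
    exact this
  have eV : (DformV (C u - X * C (DformV u v)) (C v + X * C (DformU u v))).eval t
      = DformV U₁ V₁ := by
    have := Expand.DformV_map (evalRingHom t) (C u - X * C (DformV u v)) (C v + X * C (DformU u v))
    simp only [coe_evalRingHom, eval_sub, eval_add, eval_mul, eval_C, eval_X] at this
    exact this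
  rw [eU, eV] at hd
  -- `hd : DformU U₁ V₁ * (-DformV u v) + DformV U₁ V₁ * DformU u v = 0`
  have h0 : Dform U₁ V₁ = 0 := by
    have := expand_D u v t
    rw [e4, e6, eD, hD, mul_zero] at this
    exact this
  have heul := euler U₁ V₁
  rw [h0, mul_zero] at heul
  have heul0 := euler u v
  have hdet : -DformV u v * V₁ - DformU u v * U₁ = -12 * Dform u v := by
    rw [hU₁, hV₁]; linear_combination -heul0
  have hdet0 : -DformV u v * V₁ - DformU u v * U₁ ≠ 0 := by
    rw [hdet]
    exact mul_ne_zero (by norm_num) hD0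
  have hPU : DformU U₁ V₁ = 0 := by
    apply (mul_eq_zero.1 (?_ : (-DformV u v * V₁ - DformU u v * U₁) * DformU U₁ V₁ = 0)).resolve_left
      hdet0
    linear_combination V₁ * hd - DformU u v * heul
  have hPV : DformV U₁ V₁ = 0 := by
    apply (mul_eq_zero.1 (?_ : (-DformV u v * V₁ - DformU u v * U₁) * DformV U₁ V₁ = 0)).resolve_left
      hdet0
    linear_combination -U₁ * hd - DformV u v * heul
  obtain ⟨hU0, hV0⟩ := grad_no_common_zero U₁ V₁ hPU hPV
  apply hdet0
  rw [hU0, hV0]; ring

end Fermat.Agent.S52.Irr
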