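import Fermat.Agent.S52.Irr.Cop
import Fermat.Agent.S52.Irr.Der

/-!
# S52 / IRR, leaf L3a-Fin: `DPoly` is squarefree and coprime to `APoly`

Over `K` use `Polynomial.isCoprime_iff_aeval_ne_zero_of_isAlgClosed (AlgebraicClosure K)`,
`Polynomial.separable_def`, `Separable.squarefree`; `aeval a p = (p.map (algebraMap ..)).eval a`
(`eval_map_algebraMap`), `map_APoly`, `map_DPoly`, `derivative_map`, `eval_APoly`, `eval_DPoly`, then
`fam_no_common_zero` / `derivative_DPoly_eval_ne_zero` over `AlgebraicClosure K` (the relation and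
`Δ ≠ 0` are transported by `algebraMap`; `-27 ≠ 0`).
-/

set_option autoImplicit false

namespace Fermat.Agent.S52.Irr

open Polynomial

theorem sqfree_transport {K : Type*} [Field K] [CharZero K] {c₄ c₆ Δ : K}
    (hrel : c₄ ^ 3 - c₆ ^ 2 = 1728 * Δ) (hΔ : Δ ≠ 0) :
    (algebraMap K (AlgebraicClosure K) c₄) ^ 3 - (algebraMap K (AlgebraicClosure K) c₆) ^ 2
      = 1728 * algebraMap K (AlgebraicClosure K) Δ ∧ algebraMap K (AlgebraicClosure K) Δ ≠ 0 := by
  refine ⟨?_, (_root_.map_ne_zero _).2 hΔ⟩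
  have := congrArg (algebraMap K (AlgebraicClosure K)) hrel
  simpa [map_ofNat] using this

theorem squarefree_DPoly {K : Type*} [Field K] [CharZero K] (c₄ c₆ Δ : K)
    (hrel : c₄ ^ 3 - c₆ ^ 2 = 1728 * Δ) (hΔ : Δ ≠ 0) : Squarefree (DPoly c₄ c₆ Δ) := by
  obtain ⟨hrel', hΔ'⟩ := sqfree_transport hrel hΔ
  apply Separable.squarefree
  rw [separable_def, Polynomial.isCoprime_iff_aeval_ne_zero_of_isAlgClosed (k := K) (AlgebraicClosure K)]
  intro a
  by_cases h : aeval a (DPoly c₄ c₆ Δ) = 0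
  · right
    rw [← eval_map_algebraMap, map_DPoly, eval_DPoly] at h
    rw [← eval_map_algebraMap, ← derivative_map, map_DPoly]
    exact derivative_DPoly_eval_ne_zero _ _ _ a hrel' hΔ' h
  · exact Or.inl h

theorem isCoprime_APoly_DPoly {K : Type*} [Field K] [CharZero K] (c₄ c₆ Δ : K)
    (hrel : c₄ ^ 3 - c₆ ^ 2 = 1728 * Δ) (hΔ : Δ ≠ 0) :
    IsCoprime (APoly c₄ c₆ Δ) (DPoly c₄ c₆ Δ) := by
  obtain ⟨hrel', hΔ'⟩ := sqfree_transport hrel hΔ
  rw [Polynomial.isCoprime_iff_aeval_ne_zero_of_isAlgClosed (k := K) (AlgebraicClosure K)]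
  intro a
  by_cases h : aeval a (DPoly c₄ c₆ Δ) = 0
  · left
    rw [← eval_map_algebraMap, map_DPoly, eval_DPoly] at h
    rw [← eval_map_algebraMap, map_APoly, eval_APoly]
    exact mul_ne_zero (by norm_num) (fam_no_common_zero _ _ _ a hrel' hΔ' h)
  · exact Or.inr h

end Fermat.Agent.S52.Irr
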