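import Mathlib

/-!
# S52 / IRR, leaf L7c-Arith: two "for `e` large" lemmas

* `exists_pow_large`: `|M p^e|^10 = |M|^10 p^(10 e)`, so it suffices that `K |M|^10 < p^e`;
  `e < 2^e ≤ p^e` (`Nat.lt_two_pow_self`, `Nat.pow_le_pow_left`), `E := (K * |M|^10).toNat + 1`.
* `exists_eval_ne_zero`: `e ↦ M p^e` is injective, `S.roots.toFinset` is finite, hence
  `{e | S.eval (M p^e) = 0}` is finite (`Set.Finite.preimage`/`Finite.of_injOn`), bounded above
  (`Set.Finite.bddAbove`).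
-/

set_option autoImplicit false

namespace Fermat.Agent.S52.Irr

open Polynomial

theorem exists_pow_large (p : ℕ) (hp : p.Prime) (M K : ℤ) :
    ∃ E : ℕ, ∀ e : ℕ, E ≤ e → K * |M * (p : ℤ) ^ e| ^ 10 < (p : ℤ) ^ (11 * e) := by
  refine ⟨(K * |M| ^ 10).toNat, fun e he => ?_⟩
  have hp2 : (2 : ℤ) ≤ p := by exact_mod_cast hp.two_le
  have hpos : (0 : ℤ) < (p : ℤ) ^ e := by positivity
  have h1 : K * |M| ^ 10 < (p : ℤ) ^ e := by
    have h2 : K * |M| ^ 10 ≤ ((K * |M| ^ 10).toNat : ℤ) := Int.self_le_toNat _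
    have h3 : (e : ℤ) < (2 : ℤ) ^ e := by exact_mod_cast Nat.lt_two_pow_self
    have h4 : (2 : ℤ) ^ e ≤ (p : ℤ) ^ e := pow_le_pow_left₀ (by norm_num) hp2 e
    have h5 : ((K * |M| ^ 10).toNat : ℤ) ≤ e := by exact_mod_cast he
    linarith
  have h6 : |M * (p : ℤ) ^ e| = |M| * (p : ℤ) ^ e := by
    rw [abs_mul, abs_of_pos hpos]
  rw [h6]
  have h7 : (0 : ℤ) < ((p : ℤ) ^ e) ^ 10 := by positivity
  calc K * (|M| * (p : ℤ) ^ e) ^ 10 = (K * |M| ^ 10) * ((p : ℤ) ^ e) ^ 10 := by ring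
    _ < (p : ℤ) ^ e * ((p : ℤ) ^ e) ^ 10 := mul_lt_mul_of_pos_right h1 h7
    _ = (p : ℤ) ^ (11 * e) := by ring

theorem exists_eval_ne_zero (S : ℤ[X]) (hS : S ≠ 0) (p : ℕ) (hp : p.Prime) (M : ℤ) (hM : M ≠ 0) :
    ∃ E : ℕ, ∀ e : ℕ, E ≤ e → S.eval (M * (p : ℤ) ^ e) ≠ 0 := by
  have hp2 : (1 : ℤ) < p := by exact_mod_cast hp.one_lt
  have hinj : Function.Injective (fun e : ℕ => M * (p : ℤ) ^ e) := by
    intro a b hab
    have := mul_left_cancel₀ hM hab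
    exact pow_right_injective₀ (by linarith) (by linarith) this
  have hfin : {e : ℕ | S.eval (M * (p : ℤ) ^ e) = 0}.Finite := by
    have h1 : (S.roots.toFinset : Set ℤ).Finite := Finset.finite_toSet _
    refine (h1.preimage hinj.injOn).subset ?_
    intro e he
    simp only [Set.mem_preimage, Finset.mem_coe, Multiset.mem_toFinset, mem_roots hS]
    exact he
  obtain ⟨B, hB⟩ := hfin.bddAbove
  refine ⟨B + 1, fun e he h => ?_⟩
  have := hB h
  omega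

end Fermat.Agent.S52.Irr
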