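import Fermat.Agent.S52.Irr.Defs

/-!
# S52 / IRR, leaf L7a-Close: a root of `Gq (AP t) (BP t)` that is `p`-adically near `r` is
`p`-adically very near the truncated power series root `U(t)/D`.

`Q := Qh (AP.eval t) (BP.eval t) (D*z) (U.eval t) D`.  Evaluate `hUS` at `t`
(`congrArg (eval t)`, `simp [Ghom]`): `Ghom A B (U.eval t) D = t^k * S.eval t`; `Ghom_mul`:
`Ghom A B (D*z) D = D^4 * Gq A B z = 0`; `Ghom_sub` gives the equation.  Modulo `p`:
`AP.eval t ≡ AP.eval 0`, `BP.eval t ≡ BP.eval 0`, `U.eval t ≡ U.eval 0 = D r`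
(`Polynomial.sub_dvd_eval_sub`), `D z ≡ D r`, so `Q ≡ Qh A0 B0 (D r) (D r) D = D^3 * dGq A0 B0 r`
(`Qh_diag`; use `Int.ModEq` / `Int.emod_emod_of_dvd`, or work in `ZMod p` with
`(ZMod.intCast_zmod_eq_zero_iff_dvd _ _)` and `push_cast [Qh]`), which is prime to `p`.
-/

set_option autoImplicit false

namespace Fermat.Agent.S52.Irr

open Polynomial

theorem close_eval_modEq (P : ℤ[X]) (p t : ℤ) (ht : p ∣ t) : P.eval t ≡ P.eval 0 [ZMOD p] := by
  have h : t - 0 ∣ P.eval t - P.eval 0 := sub_dvd_eval_sub t 0 P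
  rw [sub_zero] at h
  exact (Int.modEq_iff_dvd.mpr (ht.trans h)).symm

theorem exists_cofactor (AP BP U S : ℤ[X]) (D r : ℤ) (k : ℕ) (hU0 : U.eval 0 = D * r)
    (hUS : Ghom AP BP U (C D) = X ^ k * S) (p : ℕ) (hp : p.Prime) (hpD : ¬ (p : ℤ) ∣ D)
    (hpd : ¬ (p : ℤ) ∣ dGq (AP.eval 0) (BP.eval 0) r) (t : ℤ) (ht : (p : ℤ) ∣ t) (z : ℤ)
    (hz : Gq (AP.eval t) (BP.eval t) z = 0) (hzr : (p : ℤ) ∣ z - r) :
    ∃ Q : ℤ, ¬ (p : ℤ) ∣ Q ∧ (D * z - U.eval t) * Q = -(t ^ k * S.eval t) := by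
  have hp' : Prime (p : ℤ) := Nat.prime_iff_prime_int.mp hp
  refine ⟨Qh (AP.eval t) (BP.eval t) (D * z) (U.eval t) D, ?_, ?_⟩
  · have hA := close_eval_modEq AP p t ht
    have hB := close_eval_modEq BP p t ht
    have hU := close_eval_modEq U p t ht
    rw [hU0] at hU
    have hz' : D * z ≡ D * r [ZMOD p] := (Int.modEq_iff_dvd.mpr hzr).symm.mul_left D
    have hQ : Qh (AP.eval t) (BP.eval t) (D * z) (U.eval t) D
        ≡ Qh (AP.eval 0) (BP.eval 0) (D * r) (D * r) D [ZMOD p] := by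
      unfold Qh
      gcongr
    rw [Qh_diag] at hQ
    intro h
    have h2 : (p : ℤ) ∣ D ^ 3 * dGq (AP.eval 0) (BP.eval 0) r :=
      (Int.ModEq.dvd_iff hQ).mp h
    rcases hp'.dvd_or_dvd h2 with h3 | h3
    · exact hpD (hp'.dvd_of_dvd_pow h3)
    · exact hpd h3
  · have h1 := congrArg (eval t) hUS
    have h2 : Ghom (AP.eval t) (BP.eval t) (U.eval t) D = t ^ k * S.eval t := by
      simpa [Ghom] using h1
    rw [← Ghom_sub, Ghom_mul, hz, h2]
    ring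

/-- reduction of the equation modulo `p ∣ t`. -/
theorem dvd_Gq_zero (AP BP : ℤ[X]) (p t z : ℤ) (ht : p ∣ t)
    (hz : Gq (AP.eval t) (BP.eval t) z = 0) : p ∣ Gq (AP.eval 0) (BP.eval 0) z := by
  have hA := close_eval_modEq AP p t ht
  have hB := close_eval_modEq BP p t ht
  have hQ : Gq (AP.eval t) (BP.eval t) z ≡ Gq (AP.eval 0) (BP.eval 0) z [ZMOD p] := by
    unfold Gq
    gcongr
  rw [hz] at hQ
  exact (Int.modEq_zero_iff_dvd.mp hQ.symm)

end Fermat.Agent.S52.Irr
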