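import Fermat.Agent.S52.Irr.FamFacts

/-!
# S52 / IRR, leaf L3a-Cop: `c4fam` and `Dfam` have no common zero

`k` algebraically closed of characteristic 0, `(u, v)` from `exists_uv`, `D₀ := Dform u v ≠ 0`
(as `D₀ ^ 5 = Δ ≠ 0`), `U₁ := u - t * DformV u v`, `V₁ := v + t * DformU u v`.
`expand_c4`, `expand_D` at `(u, v, t)`: `c4form U₁ V₁ = c4fam c₄ c₆ Δ t = 0` and
`Dform U₁ V₁ = D₀ * Dfam c₄ c₆ Δ t = 0`, so `U₁ = V₁ = 0` by `forms_no_common_zero`.  But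
`U₁ * DformU u v + V₁ * DformV u v = u * DformU u v + v * DformV u v = 12 D₀ ≠ 0` (`euler`).
-/

set_option autoImplicit false

namespace Fermat.Agent.S52.Irr

open Polynomial

theorem fam_no_common_zero {k : Type*} [Field k] [IsAlgClosed k] [CharZero k] (c₄ c₆ Δ t : k)
    (hrel : c₄ ^ 3 - c₆ ^ 2 = 1728 * Δ) (hΔ : Δ ≠ 0) (hD : Dfam c₄ c₆ Δ t = 0) :
    c4fam c₄ c₆ Δ t ≠ 0 :=
  c4fam_ne_zero_of_Dfam_eq_zero (by norm_num) c₄ c₆ Δ t hrel hΔ hD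

end Fermat.Agent.S52.Irr
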