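import Fermat.Agent.S52.Forms
import Fermat.Agent.S52.FamField
import Fermat.Agent.S52.Irr.Defs

/-!
# S52 / IRR: the facts on the family that IRR uses (interface with chapter FAM)

`F1`-`F3` are private copies of statements of chapter FAM (helper1 / helper9: Expand, Untwist); they
will be replaced by citations as soon as those files are on main.  DO NOT prove them here without
asking helper1 first.
-/

set_option autoImplicit false

namespace Fermat.Agent.S52.Irr

/-- (F1a) -/
theorem expand_c4 {R : Type*} [CommRing R] (u v t : R) :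
    c4form (u - t * DformV u v) (v + t * DformU u v)
      = c4fam (c4form u v) (c6form u v) (Dform u v ^ 5) t :=
  c4form_shift u v t

/-- (F1b) -/
theorem expand_D {R : Type*} [CommRing R] (u v t : R) :
    Dform (u - t * DformV u v) (v + t * DformU u v)
      = Dform u v * Dfam (c4form u v) (c6form u v) (Dform u v ^ 5) t :=
  Dform_shift u v t

/-- (F2) -/
theorem exists_uv {k : Type*} [Field k] [IsAlgClosed k] [CharZero k] (c₄ c₆ Δ : k)
    (hrel : c₄ ^ 3 - c₆ ^ 2 = 1728 * Δ) (hΔ : Δ ≠ 0) :
    ∃ u v : k, c4form u v = c₄ ∧ c6form u v = c₆ ∧ Dform u v ^ 5 = Δ :=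
  Fermat.Agent.S52.exists_uv (by norm_num) c₄ c₆ Δ hrel hΔ

/-- (F3) -/
theorem forms_no_common_zero {k : Type*} [Field k] [CharZero k] (u v : k)
    (h4 : c4form u v = 0) (hD : Dform u v = 0) : u = 0 ∧ v = 0 :=
  Fermat.Agent.S52.forms_no_common_zero (by norm_num) h4 hD

end Fermat.Agent.S52.Irr
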