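import Fermat.Agent.S52.Irr.Defs

/-!
# S52 / IRR, leaf L2-Hensel: polynomial Newton iteration over `ℤ` (homogeneous form)

Induction on `k`.  `k = 0`: `D = 1`, `U = C r`; `X ∣ Ghom AP BP (C r) (C 1)` because its value at `0`
is `Gq (AP.eval 0) (BP.eval 0) r = 0` (`Polynomial.X_dvd_iff`, `coeff_zero_eq_eval_zero`, `Ghom_one`).
Step: given `(D, U, S)` for `k` put `e := dGq (AP.eval 0) (BP.eval 0) r`, `l := D ^ 3 * e`,
`c := S.eval 0`, `U' := C l * U - C c * X ^ (k+1)`, `D' := l * D`.  By `Ghom_add`, `Ghom_scale`,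
`dGhom_scale`:
`Ghom AP BP U' (C D') = X^(k+1) * (C l ^ 4 * S - C c * C l ^ 3 * dGhom AP BP U (C D)) + X^(2k+2) * (..)`
and the bracket vanishes at `0`: `l^4 c - c l^3 (D^3 e) = 0` (`dGhom_mul` with `U.eval 0 = D r`), so
it is divisible by `X`.
-/

set_option autoImplicit false

namespace Fermat.Agent.S52.Irr

open Polynomial

theorem hensel_eval_Ghom (A B u d : ℤ[X]) (t : ℤ) :
    (Ghom A B u d).eval t = Ghom (A.eval t) (B.eval t) (u.eval t) (d.eval t) := by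
  simp [Ghom]

theorem hensel_eval_dGhom (A B u d : ℤ[X]) (t : ℤ) :
    (dGhom A B u d).eval t = dGhom (A.eval t) (B.eval t) (u.eval t) (d.eval t) := by
  simp [dGhom]

theorem exists_hensel_data (AP BP : ℤ[X]) (r : ℤ) (hr : Gq (AP.eval 0) (BP.eval 0) r = 0)
    (hd : dGq (AP.eval 0) (BP.eval 0) r ≠ 0) (k : ℕ) :
    ∃ (D : ℤ) (U S : ℤ[X]), D ≠ 0 ∧ U.eval 0 = D * r ∧ U.natDegree ≤ k ∧
      Ghom AP BP U (C D) = X ^ (k + 1) * S := by
  induction k with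
  | zero =>
    have h1 : X ∣ Ghom AP BP (C r) (C 1) := by
      rw [X_dvd_iff, coeff_zero_eq_eval_zero, hensel_eval_Ghom, eval_C, eval_C, Ghom_one, hr]
    obtain ⟨S, hS⟩ := h1
    exact ⟨1, C r, S, one_ne_zero, by simp, by simp, by rw [hS]; simp⟩
  | succ k ih =>
    obtain ⟨D, U, S, hD, hU0, hUdeg, hUS⟩ := ih
    obtain ⟨e, he⟩ : ∃ e : ℤ, e = dGq (AP.eval 0) (BP.eval 0) r := ⟨_, rfl⟩
    obtain ⟨l, hl⟩ : ∃ l : ℤ, l = D ^ 3 * e := ⟨_, rfl⟩
    obtain ⟨c, hc⟩ : ∃ c : ℤ, c = S.eval 0 := ⟨_, rfl⟩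
    have hl0 : l ≠ 0 := by rw [hl]; exact mul_ne_zero (pow_ne_zero _ hD) (he ▸ hd)
    have h1 : X ∣ C l ^ 4 * S - C c * (C l ^ 3 * dGhom AP BP U (C D)) := by
      rw [X_dvd_iff, coeff_zero_eq_eval_zero]
      simp only [eval_sub, eval_mul, eval_pow, eval_C, hensel_eval_dGhom, hU0, dGhom_mul, ← he, ← hc]
      rw [hl]; ring
    obtain ⟨T, hT⟩ := h1
    refine ⟨l * D, C l * U + -(C c * X ^ (k + 1)),
      T + X ^ k * (C c ^ 2 * (6 * (C l * U) ^ 2 + 4 * (C l * U) * (-(C c * X ^ (k + 1)))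
        + (-(C c * X ^ (k + 1))) ^ 2 + 18 * AP * (C l * C D) ^ 2)),
      mul_ne_zero hl0 hD, ?_, ?_, ?_⟩
    · simp [hU0]; ring
    · refine (natDegree_add_le _ _).trans (max_le ?_ ?_)
      · exact (natDegree_C_mul_le _ _).trans (hUdeg.trans (Nat.le_succ _))
      · rw [natDegree_neg]
        exact natDegree_C_mul_X_pow_le _ _
    · rw [C_mul, Ghom_add, Ghom_scale, dGhom_scale, hUS]
      linear_combination X ^ (k + 1) * hT
end Fermat.Agent.S52.Irr
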