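import Fermat.Agent.S52.Irr.Roots
import Fermat.Agent.S29.FDFixed

/-!
# S52 / IRR, leaf L6b-Lift: a root of `Gq A0 B0` modulo `𝔪_𝒜` is the reduction of a root in `ℚ̄`

API: `Fermat.Agent.S54.{nonunits_add, nonunits_mul_mem, nonunits_neg, integralClosure_le}`,
`Fermat.Agent.S29.FDFixed.{intCast_mem_nonunits_iff, intCast_mem}`.
`((Gq A0 B0 z : ℤ) : Qb) = Gq A0 B0 (z : Qb) = ∏ (z - ξ)` (`push_cast [Gq]`, `exists_Gq_eq_prod`), all
factors are in `𝒜` (`root_mem`, `intCast_mem`); if none were in `𝒜.nonunits`, all valuations would be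
`1` (`ValuationSubring.valuation_le_one_iff`, `valuation_lt_one_iff` / `mem_nonunits_iff`,
`map_multiset_prod`, `Multiset.prod_eq_one`), so the product would have valuation 1.
-/

set_option autoImplicit false

namespace Fermat.Agent.S52.Irr

open Polynomial

local notation "Qb" => AlgebraicClosure ℚ

theorem root_mem (A0 B0 : ℤ) (𝒜 : ValuationSubring Qb) (ξ : Qb)
    (hξ : Gq (A0 : Qb) (B0 : Qb) ξ = 0) : ξ ∈ 𝒜 :=
  Fermat.Agent.S54.integralClosure_le 𝒜 ξ (isIntegral_of_Gq_eq_zero A0 B0 ξ hξ)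

theorem lift_prod_valuation (𝒜 : ValuationSubring Qb) (s : Multiset Qb)
    (h : ∀ y ∈ s, 𝒜.valuation y = 1) : 𝒜.valuation s.prod = 1 := by
  induction s using Multiset.induction_on with
  | empty => simp
  | cons a s ih =>
    rw [Multiset.prod_cons, map_mul, h a (Multiset.mem_cons_self a s),
      ih (fun y hy => h y (Multiset.mem_cons_of_mem hy)), one_mul]

theorem exists_root_near (A0 B0 : ℤ) (𝒜 : ValuationSubring Qb) (z : ℤ)
    (hz : ((Gq A0 B0 z : ℤ) : Qb) ∈ 𝒜.nonunits) :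
    ∃ ξ : Qb, Gq (A0 : Qb) (B0 : Qb) ξ = 0 ∧ (z : Qb) - ξ ∈ 𝒜.nonunits := by
  obtain ⟨s, hs, hprod⟩ := exists_Gq_eq_prod A0 B0
  by_contra hcon
  push Not at hcon
  have h1 : ((Gq A0 B0 z : ℤ) : Qb) = (s.map (fun ξ => (z : Qb) - ξ)).prod := by
    rw [← hprod]
    simp [Gq]
  rw [h1, ValuationSubring.mem_nonunits_iff] at hz
  have h2 : 𝒜.valuation (s.map (fun ξ => (z : Qb) - ξ)).prod = 1 := by
    apply lift_prod_valuation
    intro y hy
    obtain ⟨ξ, hξ, rfl⟩ := Multiset.mem_map.mp hy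
    have h3 : (z : Qb) - ξ ∈ 𝒜 :=
      𝒜.sub_mem (Fermat.Agent.S29.FDFixed.intCast_mem 𝒜 z) (root_mem A0 B0 𝒜 ξ (hs ξ hξ))
    have h4 := hcon ξ (hs ξ hξ)
    rw [ValuationSubring.mem_nonunits_iff, not_lt] at h4
    exact le_antisymm ((𝒜.valuation_le_one_iff _).mpr h3) h4
  rw [h2] at hz
  exact lt_irrefl _ hz

end Fermat.Agent.S52.Irr
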