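import Fermat.Agent.S52.Irr.Defs

/-!
# S52 / IRR, leaf L4-Size: archimedean size of the roots

`abs_eval_le`: `C := ∑ i ∈ range (n+1), |P.coeff i|` (`eval_eq_sum_range'`, `|t|^i ≤ |t|^n` as
`1 ≤ |t|`).
`exists_size_bound`: `|AP(t)| ≤ a τ²`, `|BP(t)| ≤ b τ³` with `τ = |t|^10 ≥ 1`.  Take
`C = 1 + 18 a + 108 b + 27 a²`.  If `|z| > C τ` then `τ ≤ |z|` and
`|z|⁴ = |18 A z² + 108 B z - 27 A²| ≤ (18 a + 108 b + 27 a²) τ |z|³ < |z|⁴`.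
-/

set_option autoImplicit false

namespace Fermat.Agent.S52.Irr

open Polynomial

theorem abs_eval_le (P : ℤ[X]) (n : ℕ) (hP : P.natDegree ≤ n) :
    ∃ C : ℤ, 0 ≤ C ∧ ∀ t : ℤ, t ≠ 0 → |P.eval t| ≤ C * |t| ^ n := by
  refine ⟨∑ i ∈ Finset.range (n + 1), |P.coeff i|, Finset.sum_nonneg fun i _ => abs_nonneg _,
    fun t ht => ?_⟩
  have h1 : (1 : ℤ) ≤ |t| := Int.one_le_abs ht
  rw [eval_eq_sum_range' (Nat.lt_succ_of_le hP), Finset.sum_mul]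
  refine (Finset.abs_sum_le_sum_abs _ _).trans (Finset.sum_le_sum fun i hi => ?_)
  rw [abs_mul, abs_pow]
  have hi' : i ≤ n := Nat.lt_succ_iff.mp (Finset.mem_range.mp hi)
  exact mul_le_mul_of_nonneg_left (pow_le_pow_right₀ h1 hi') (abs_nonneg _)

/-- abstract form. -/
theorem abs_le_of_Gq_eq_zero (a b τ A B z : ℤ) (ha : 0 ≤ a) (hb : 0 ≤ b) (hτ : 1 ≤ τ)
    (hA : |A| ≤ a * τ ^ 2) (hB : |B| ≤ b * τ ^ 3) (hz : Gq A B z = 0) :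
    |z| ≤ (1 + 18 * a + 108 * b + 27 * a ^ 2) * τ := by
  by_contra hcon
  push Not at hcon
  obtain ⟨w, hw⟩ : ∃ w : ℤ, w = |z| := ⟨_, rfl⟩
  rw [← hw] at hcon
  have hs : 0 ≤ 18 * a + 108 * b + 27 * a ^ 2 := by positivity
  have hτw : τ ≤ w := by nlinarith
  have hw0 : 0 < w := by linarith
  have h1 : z ^ 4 = -(18 * A * z ^ 2) - 108 * B * z + 27 * A ^ 2 := by
    simp only [Gq] at hz; linarith
  have h2 : w ^ 4 = |z ^ 4| := by rw [hw, abs_pow]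
  have h3 : |z ^ 4| ≤ 18 * |A| * w ^ 2 + 108 * |B| * w + 27 * |A| ^ 2 := by
    rw [h1]
    calc |-(18 * A * z ^ 2) - 108 * B * z + 27 * A ^ 2|
        ≤ |-(18 * A * z ^ 2) - 108 * B * z| + |27 * A ^ 2| := abs_add_le _ _
      _ ≤ |-(18 * A * z ^ 2)| + |108 * B * z| + |27 * A ^ 2| := by
          gcongr; exact abs_sub _ _
      _ = 18 * |A| * w ^ 2 + 108 * |B| * w + 27 * |A| ^ 2 := by
          rw [abs_neg, abs_mul, abs_mul, abs_mul, abs_mul, abs_mul, abs_pow, abs_pow, hw]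
          norm_num
  have hA0 : 0 ≤ |A| := abs_nonneg _
  have t1 : |A| * w ^ 2 ≤ a * τ * w ^ 3 := by
    calc |A| * w ^ 2 ≤ (a * τ ^ 2) * w ^ 2 := by gcongr
      _ = a * τ * (τ * w ^ 2) := by ring
      _ ≤ a * τ * (w * w ^ 2) := by gcongr
      _ = a * τ * w ^ 3 := by ring
  have t2 : |B| * w ≤ b * τ * w ^ 3 := by
    calc |B| * w ≤ (b * τ ^ 3) * w := by gcongr
      _ = b * τ * (τ * τ * w) := by ring
      _ ≤ b * τ * (w * w * w) := by gcongr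
      _ = b * τ * w ^ 3 := by ring
  have t3 : |A| ^ 2 ≤ a ^ 2 * τ * w ^ 3 := by
    calc |A| ^ 2 ≤ (a * τ ^ 2) ^ 2 := by gcongr
      _ = a ^ 2 * τ * (τ * τ * τ) := by ring
      _ ≤ a ^ 2 * τ * (w * w * w) := by gcongr
      _ = a ^ 2 * τ * w ^ 3 := by ring
  have h4 : w ^ 4 ≤ (18 * a + 108 * b + 27 * a ^ 2) * τ * w ^ 3 := by
    rw [h2]; nlinarith
  have h5 : w * w ^ 3 ≤ ((18 * a + 108 * b + 27 * a ^ 2) * τ) * w ^ 3 := by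
    calc w * w ^ 3 = w ^ 4 := by ring
      _ ≤ _ := h4
  have h6 : w ≤ (18 * a + 108 * b + 27 * a ^ 2) * τ :=
    le_of_mul_le_mul_right h5 (by positivity)
  nlinarith

theorem exists_size_bound (AP BP : ℤ[X]) (hA : AP.natDegree ≤ 20) (hB : BP.natDegree ≤ 30) :
    ∃ C : ℤ, 0 ≤ C ∧ ∀ t : ℤ, t ≠ 0 → ∀ z : ℤ, Gq (AP.eval t) (BP.eval t) z = 0 →
      |z| ≤ C * |t| ^ 10 := by
  obtain ⟨a, ha, hAa⟩ := abs_eval_le AP 20 hA
  obtain ⟨b, hb, hBb⟩ := abs_eval_le BP 30 hB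
  refine ⟨1 + 18 * a + 108 * b + 27 * a ^ 2, by positivity, fun t ht z hz => ?_⟩
  have h1 : (1 : ℤ) ≤ |t| := Int.one_le_abs ht
  refine abs_le_of_Gq_eq_zero a b (|t| ^ 10) _ _ z ha hb (one_le_pow₀ h1) ?_ ?_ hz
  · calc |AP.eval t| ≤ a * |t| ^ 20 := hAa t ht
      _ = a * (|t| ^ 10) ^ 2 := by ring
  · calc |BP.eval t| ≤ b * |t| ^ 30 := hBb t ht
      _ = b * (|t| ^ 10) ^ 3 := by ring

end Fermat.Agent.S52.Irr
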