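import Fermat.Agent.S52.Irr.Hensel
import Fermat.Agent.S52.Irr.Size
import Fermat.Agent.S52.Irr.Close
import Fermat.Agent.S52.Irr.Arith

/-!
# S52 / IRR, assembly L7: for `t = M p^e`, `e` large, there is no integer root `p`-adically near `r`
-/

set_option autoImplicit false

namespace Fermat.Agent.S52.Irr

open Polynomial

theorem per_root (AP BP : ℤ[X]) (hA : AP.natDegree ≤ 20) (hB : BP.natDegree ≤ 30)
    (hno : ∀ (D : ℤ) (U : ℤ[X]), D ≠ 0 → Ghom AP BP U (C D) ≠ 0) (M : ℤ) (hM : M ≠ 0)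
    (r : ℤ) (hr : Gq (AP.eval 0) (BP.eval 0) r = 0) (hd : dGq (AP.eval 0) (BP.eval 0) r ≠ 0) :
    ∃ N : ℤ, N ≠ 0 ∧ ∀ p : ℕ, p.Prime → ¬ (p : ℤ) ∣ N → ∃ E : ℕ, ∀ e : ℕ, E ≤ e → ∀ z : ℤ,
      Gq (AP.eval (M * (p : ℤ) ^ e)) (BP.eval (M * (p : ℤ) ^ e)) z = 0 → ¬ (p : ℤ) ∣ z - r := by
  obtain ⟨D, U, S, hD, hU0, hUdeg, hUS⟩ := exists_hensel_data AP BP r hr hd 10
  have hS : S ≠ 0 := by
    rintro rfl
    exact hno D U hD (by rw [hUS, mul_zero])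
  obtain ⟨C1, hC1, hsize⟩ := exists_size_bound AP BP hA hB
  obtain ⟨C2, hC2, hUsize⟩ := abs_eval_le U 10 hUdeg
  refine ⟨D * dGq (AP.eval 0) (BP.eval 0) r, mul_ne_zero hD hd, fun p hp hpN => ?_⟩
  have hpD : ¬ (p : ℤ) ∣ D := fun h => hpN (h.mul_right _)
  have hpd : ¬ (p : ℤ) ∣ dGq (AP.eval 0) (BP.eval 0) r := fun h => hpN (h.mul_left _)
  obtain ⟨E1, hE1⟩ := exists_pow_large p hp M (|D| * C1 + C2)
  obtain ⟨E2, hE2⟩ := exists_eval_ne_zero S hS p hp M hM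
  refine ⟨max (max E1 E2) 1, fun e he z hz hzr => ?_⟩
  have he1 : E1 ≤ e := le_trans (le_trans (le_max_left _ _) (le_max_left _ _)) he
  have he2 : E2 ≤ e := le_trans (le_trans (le_max_right _ _) (le_max_left _ _)) he
  have he3 : 1 ≤ e := le_trans (le_max_right _ _) he
  have hp' : Prime (p : ℤ) := Nat.prime_iff_prime_int.mp hp
  have hp0 : (p : ℤ) ≠ 0 := hp'.ne_zero
  obtain ⟨t, ht⟩ : ∃ t : ℤ, t = M * (p : ℤ) ^ e := ⟨_, rfl⟩
  rw [← ht] at hz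
  have ht0 : t ≠ 0 := by rw [ht]; exact mul_ne_zero hM (pow_ne_zero _ hp0)
  have hpt : (p : ℤ) ∣ t := by
    rw [ht]; exact (dvd_pow_self _ (by omega)).mul_left _
  obtain ⟨Q, hQ, hEq⟩ := exists_cofactor AP BP U S D r 11 hU0 hUS p hp hpD hpd t hpt z hz hzr
  have hdiv : (p : ℤ) ^ (11 * e) ∣ D * z - U.eval t := by
    have h1 : (p : ℤ) ^ (11 * e) ∣ (D * z - U.eval t) * Q := by
      rw [hEq, ht]
      refine (Dvd.intro_left (M ^ 11 * S.eval (M * (p : ℤ) ^ e)) ?_).neg_right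
      ring
    have hcop : IsCoprime ((p : ℤ) ^ (11 * e)) Q :=
      IsCoprime.pow_left (hp'.coprime_iff_not_dvd.mpr hQ)
    exact hcop.dvd_of_dvd_mul_right h1
  have hne : D * z - U.eval t ≠ 0 := by
    intro h0
    rw [h0, zero_mul] at hEq
    have h1 : t ^ 11 * S.eval t = 0 := by linarith
    rcases mul_eq_zero.mp h1 with h | h
    · exact ht0 (pow_eq_zero_iff (by norm_num) |>.mp h)
    · rw [ht] at h
      exact hE2 e he2 h
  have hle : (p : ℤ) ^ (11 * e) ≤ |D * z - U.eval t| :=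
    Int.le_of_dvd (abs_pos.mpr hne) ((dvd_abs _ _).mpr hdiv)
  have hub : |D * z - U.eval t| ≤ (|D| * C1 + C2) * |t| ^ 10 := by
    calc |D * z - U.eval t| ≤ |D * z| + |U.eval t| := abs_sub _ _
      _ ≤ |D| * (C1 * |t| ^ 10) + C2 * |t| ^ 10 := by
          rw [abs_mul]
          exact add_le_add (mul_le_mul_of_nonneg_left (hsize t ht0 z hz) (abs_nonneg _))
            (hUsize t ht0)
      _ = (|D| * C1 + C2) * |t| ^ 10 := by ring
  have h3 := hE1 e he1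
  rw [← ht] at h3
  linarith

end Fermat.Agent.S52.Irr
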