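import Fermat.Agent.S52.Irr.Defs

/-!
# S52 / IRR, leaf L3b-Unit: no polynomial root (abstract form), first half

`K` a field of characteristic 0, `A B Dp z : K[X]`, `4 A³ + 27 B² = κ Dp⁵`, `Dp` squarefree and
coprime to `A`, `Gq A B z = 0`.  Put `m := mq A z = z² + 3A`, `d := dq A B z`.  By `Gq_eq`, `disc_eq`:
  (i) `3 m² = 4 z d`,   (ii) `m³ - 2 d² = -54 κ Dp⁵`.

**L3b-Unit** (`isUnit_dq`): `d ≠ 0` (else `m = 0`, `Dp = 0`, not squarefree: `not_squarefree_zero`).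
If `d` is not a unit it has a prime factor `π` (`WfDvdMonoid.exists_irreducible_factor`,
`Irreducible.prime`).  Constants `3, 4, 2, 54 κ` are units `C _`.
 1. `π ∣ m` by (i), hence `π ∣ Dp` by (ii) (`Prime.dvd_of_dvd_pow`).
 2. `π ∤ z` (else `π ∣ 3 A = m - z²`, `π ∣ A`, contradiction with `IsCoprime A Dp`:
    `IsCoprime.isUnit_of_dvd'`).
 3. `π² ∣ m² `, so `π² ∣ d` (`Prime.pow_dvd_of_dvd_mul_left`), `π⁴ ∣ d²`, `π⁵ ∣ Dp⁵`, so `π⁴ ∣ m³`;
    writing `m = π m₁`: `π ∣ m₁³`, so `π² ∣ m`.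
 4. `π⁴ ∣ m²`, so `π⁴ ∣ d`, `π⁸ ∣ d²`, `π⁶ ∣ m³`, so `π⁶ ∣ Dp⁵`; writing `Dp = π w`: `π ∣ w⁵`, `π ∣ w`,
    `π * π ∣ Dp`, contradiction with `Squarefree Dp`.

-/

set_option autoImplicit false

namespace Fermat.Agent.S52.Irr

open Polynomial

variable {K : Type*} [Field K] [CharZero K]

theorem isUnit_dq (A B Dp : K[X]) (κ : K) (hκ : κ ≠ 0)
    (hrel : 4 * A ^ 3 + 27 * B ^ 2 = C κ * Dp ^ 5) (hsq : Squarefree Dp) (hcop : IsCoprime A Dp)
    (z : K[X]) (hz : Gq A B z = 0) : IsUnit (dq A B z) := by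
  have h1 : 3 * mq A z ^ 2 = 4 * z * dq A B z := by
    have := Gq_eq A B z; rw [hz] at this; linear_combination this
  have h2 : mq A z ^ 3 - 2 * dq A B z ^ 2 = -54 * (C κ * Dp ^ 5) := by
    have := disc_eq A B z; rw [hz, hrel] at this; linear_combination this
  have h3 : mq A z - z ^ 2 = 3 * A := by simp only [mq]; ring
  generalize mq A z = m at h1 h2 h3
  generalize dq A B z = d at h1 h2
  have hDp0 : Dp ≠ 0 := hsq.ne_zero
  have uC : ∀ c : K, c ≠ 0 → IsUnit (C c : K[X]) := fun c hc =>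
    isUnit_C.mpr (isUnit_iff_ne_zero.mpr hc)
  have u3 : IsUnit (3 : K[X]) := by
    have := uC 3 (by norm_num); rwa [map_ofNat] at this
  have u4 : IsUnit (4 : K[X]) := by
    have := uC 4 (by norm_num); rwa [map_ofNat] at this
  have uκ : IsUnit (-54 * C κ : K[X]) := by
    have := uC (-54 * κ) (mul_ne_zero (by norm_num) hκ)
    rwa [map_mul, map_neg, map_ofNat] at this
  have hd0 : d ≠ 0 := by
    rintro rfl
    have hm : m = 0 := by
      have h : 3 * m ^ 2 = 0 := by rw [h1]; ring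
      have h' := (u3.mul_right_eq_zero).mp h
      exact pow_eq_zero_iff (two_ne_zero) |>.mp h'
    subst hm
    have h : (-54 * C κ) * Dp ^ 5 = 0 := by linear_combination -h2
    have h' := (uκ.mul_right_eq_zero).mp h
    exact hDp0 (pow_eq_zero_iff (by norm_num) |>.mp h')
  by_contra hnu
  obtain ⟨π, hπi, hπd⟩ := WfDvdMonoid.exists_irreducible_factor hnu hd0
  have hπ : Prime π := hπi.prime
  have hπ0 : π ≠ 0 := hπ.ne_zero
  -- step 1
  have hπm : π ∣ m := by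
    have h : π ∣ 3 * m ^ 2 := by rw [h1]; exact Dvd.dvd.mul_left hπd _
    exact hπ.dvd_of_dvd_pow ((u3.dvd_mul_left).mp h)
  have hπD : π ∣ Dp := by
    have h : π ∣ (-54 * C κ) * Dp ^ 5 := by
      have e : (-54 * C κ) * Dp ^ 5 = m ^ 3 - 2 * d ^ 2 := by linear_combination -h2
      rw [e]
      exact dvd_sub (dvd_pow hπm (by norm_num)) (Dvd.dvd.mul_left (dvd_pow hπd (by norm_num)) _)
    exact hπ.dvd_of_dvd_pow ((uκ.dvd_mul_left).mp h)
  -- step 2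
  have hπz : ¬ π ∣ z := by
    intro hzz
    have h : π ∣ 3 * A := by rw [← h3]; exact dvd_sub hπm (dvd_pow hzz (by norm_num))
    have hA : π ∣ A := (u3.dvd_mul_left).mp h
    exact hπ.not_isUnit (hcop.isUnit_of_dvd' hA hπD)
  obtain ⟨m₁, rfl⟩ := hπm
  obtain ⟨w, rfl⟩ := hπD
  -- step 3
  have hd2 : π ^ 2 ∣ d := by
    have h : π ^ 2 ∣ z * (4 * d) := ⟨3 * m₁ ^ 2, by linear_combination -h1⟩
    have h' := hπ.pow_dvd_of_dvd_mul_left 2 hπz h
    exact (u4.dvd_mul_left).mp h'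
  obtain ⟨d₁, rfl⟩ := hd2
  have hm1 : π ∣ m₁ := by
    have e : π ^ 3 * m₁ ^ 3 = π ^ 3 * (π * (2 * d₁ ^ 2 - 54 * C κ * π * w ^ 5)) := by
      linear_combination h2
    have e' := mul_left_cancel₀ (pow_ne_zero 3 hπ0) e
    exact hπ.dvd_of_dvd_pow (⟨_, e'⟩ : π ∣ m₁ ^ 3)
  obtain ⟨m₂, rfl⟩ := hm1
  -- step 4
  have hd4 : π ^ 2 ∣ d₁ := by
    have e : π ^ 2 * (z * (4 * d₁)) = π ^ 2 * (π ^ 2 * (3 * m₂ ^ 2)) := by
      linear_combination -h1
    have e' := mul_left_cancel₀ (pow_ne_zero 2 hπ0) e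
    have h' := hπ.pow_dvd_of_dvd_mul_left 2 hπz (⟨_, e'⟩ : π ^ 2 ∣ z * (4 * d₁))
    exact (u4.dvd_mul_left).mp h'
  obtain ⟨d₂, rfl⟩ := hd4
  have hw : π ∣ w := by
    have e : π ^ 5 * ((-54 * C κ) * w ^ 5) = π ^ 5 * (π * (m₂ ^ 3 - 2 * π ^ 2 * d₂ ^ 2)) := by
      linear_combination -h2
    have e' := mul_left_cancel₀ (pow_ne_zero 5 hπ0) e
    exact hπ.dvd_of_dvd_pow ((uκ.dvd_mul_left).mp (⟨_, e'⟩ : π ∣ (-54 * C κ) * w ^ 5))
  exact hπ.not_isUnit (hsq π (mul_dvd_mul_left π hw))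

end Fermat.Agent.S52.Irr
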