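import Mathlib

/-!
# S52 / IRR, leaf L5-Perm: a group acting on at most 3 points without a common fixed point contains
a fixed point free element.

`|Z| = 0`: trivial. `|Z| = 1`: impossible (`g • x ∈ Z = {x}`). `|Z| = 2`, `Z = {a,b}`: `g a ≠ a` gives
`g a = b`, hence `g b = a` (injectivity). `|Z| = 3`, `Z = {a,b,c}`: every `g` permutes `Z`; take `g`
with `g a ≠ a`, say `g a = b`; if `g b = c` then `g c = a`, done; otherwise `g = (a b)` fixes `c`; take
`h` with `h c ≠ c`; either `h` is a 3-cycle or a transposition `(c a)` / `(c b)`, and then `g * h` is a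
3-cycle.  (Alternative: map to `Equiv.Perm (Fin 3)` and `decide`; or Burnside.)
-/

set_option autoImplicit false

namespace Fermat.Agent.S52.Irr

theorem exists_fixedPointFree {G α : Type*} [Group G] [MulAction G α] [DecidableEq α]
    (Z : Finset α) (hcard : Z.card ≤ 3) (hstab : ∀ g : G, ∀ x ∈ Z, g • x ∈ Z)
    (hno : ∀ x ∈ Z, ∃ g : G, g • x ≠ x) : ∃ g : G, ∀ x ∈ Z, g • x ≠ x := by
  by_contra hcon
  push Not at hcon
  obtain ⟨a, ha, -⟩ := hcon 1
  obtain ⟨g, hg⟩ := hno a ha
  obtain ⟨c, hc, hgc⟩ := hcon g
  obtain ⟨b, hb⟩ : ∃ b, g • a = b := ⟨_, rfl⟩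
  have hbZ : b ∈ Z := hb ▸ hstab g a ha
  have hab : a ≠ b := fun h => hg (hb.trans h.symm)
  have hac : a ≠ c := by
    rintro rfl
    exact hg hgc
  have hbc : b ≠ c := by
    intro h
    exact hac (MulAction.injective g (hb.trans (h.trans hgc.symm)))
  have hZ : ({a, b, c} : Finset α) = Z := by
    apply Finset.eq_of_subset_of_card_le
    · intro x hx
      simp only [Finset.mem_insert, Finset.mem_singleton] at hx
      rcases hx with rfl | rfl | rfl <;> assumption
    · rw [Finset.card_eq_three.2 ⟨a, b, c, hab, hac, hbc, rfl⟩]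
      exact hcard
  have hmem : ∀ x ∈ Z, x = a ∨ x = b ∨ x = c := by
    intro x hx
    rw [← hZ] at hx
    simpa using hx
  have hgb : g • b = a := by
    rcases hmem _ (hstab g b hbZ) with h | h | h
    · exact h
    · exact absurd (MulAction.injective g (h.trans hb.symm)) hab.symm
    · exact absurd (MulAction.injective g (h.trans hgc.symm)) hbc
  obtain ⟨h, hh⟩ := hno c hc
  obtain ⟨d, hd, hhd⟩ := hcon h
  obtain ⟨x, hx, hxx⟩ := hcon (g * h)
  rw [mul_smul] at hxx
  rcases hmem d hd with rfl | rfl | rfl
  · -- `h a = a`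
    have hhc : h • c = b := by
      rcases hmem _ (hstab h c hc) with e | e | e
      · exact absurd (MulAction.injective h (e.trans hhd.symm)) hac.symm
      · exact e
      · exact absurd e hh
    have hhb : h • b = c := by
      rcases hmem _ (hstab h b hbZ) with e | e | e
      · exact absurd (MulAction.injective h (e.trans hhd.symm)) hab.symm
      · exact absurd (MulAction.injective h (e.trans hhc.symm)) hbc
      · exact e
    rcases hmem x hx with rfl | rfl | rfl
    · rw [hhd, hb] at hxx; exact hab hxx.symm
    · rw [hhb, hgc] at hxx; exact hbc hxx.symm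
    · rw [hhc, hgb] at hxx; exact hac hxx
  · -- `h b = b`
    have hhc : h • c = a := by
      rcases hmem _ (hstab h c hc) with e | e | e
      · exact e
      · exact absurd (MulAction.injective h (e.trans hhd.symm)) hbc.symm
      · exact absurd e hh
    have hha : h • a = c := by
      rcases hmem _ (hstab h a ha) with e | e | e
      · exact absurd (MulAction.injective h (e.trans hhc.symm)) hac
      · exact absurd (MulAction.injective h (e.trans hhd.symm)) hab
      · exact e
    rcases hmem x hx with rfl | rfl | rfl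
    · rw [hha, hgc] at hxx; exact hac hxx.symm
    · rw [hhd, hgb] at hxx; exact hab hxx
    · rw [hhc, hb] at hxx; exact hbc hxx
  · exact hh hhd

end Fermat.Agent.S52.Irr
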