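import Fermat.Agent.S52.Irr.Defs

/-!
# S52 / IRR, leaf L6r-Roots: the roots of `Gq A0 B0` in `ℚ̄`

`P := X^4 + C (18 A0) * X^2 + C (108 B0) * X - C (27 A0^2)` (over `ℤ`, mapped to `Qb`) is monic of
degree 4 (`monicity!` / `compute_degree!`), `eval x P = Gq A0 B0 x` by `simp [Gq]`.
* integrality: `⟨P, monic, eval₂ = 0⟩`;
* `Rt := P.roots.toFinset`, `Multiset.toFinset_card_le`, `Polynomial.card_roots'`, `mem_roots`;
* product: `IsAlgClosed.splits`, `Polynomial.Splits.eval_eq_prod_roots_of_monic` (or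
  `eq_prod_roots_of_monic_of_splits_id` + `eval_multiset_prod`), `s := P.roots`.
-/

set_option autoImplicit false

namespace Fermat.Agent.S52.Irr

open Polynomial

local notation "Qb" => AlgebraicClosure ℚ

/-- the quartic as a polynomial. -/
noncomputable def rootsPoly {R : Type*} [CommRing R] (A B : R) : R[X] :=
  X ^ 4 + C (18 * A) * X ^ 2 + C (108 * B) * X - C (27 * A ^ 2)

theorem roots_monic {R : Type*} [CommRing R] [Nontrivial R] (A B : R) : (rootsPoly A B).Monic := by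
  unfold rootsPoly
  monicity!

theorem roots_natDegree {R : Type*} [CommRing R] [Nontrivial R] (A B : R) :
    (rootsPoly A B).natDegree = 4 := by
  unfold rootsPoly
  compute_degree!

theorem roots_eval {R : Type*} [CommRing R] (A B x : R) : (rootsPoly A B).eval x = Gq A B x := by
  simp [rootsPoly, Gq]

/-- roots of `Gq A0 B0` are algebraic integers. -/
theorem isIntegral_of_Gq_eq_zero (A0 B0 : ℤ) (ξ : Qb) (hξ : Gq (A0 : Qb) (B0 : Qb) ξ = 0) :
    IsIntegral ℤ ξ := by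
  refine ⟨rootsPoly A0 B0, roots_monic _ _, ?_⟩
  rw [← hξ]
  simp only [rootsPoly, Gq, eval₂_sub, eval₂_add, eval₂_mul, eval₂_pow, eval₂_X, eval₂_C]
  simp only [eq_intCast]
  push_cast
  ring

/-- the roots of `Gq A0 B0` form a finite set with at most 4 elements. -/
theorem exists_roots_finset (A0 B0 : ℤ) :
    ∃ Rt : Finset Qb, Rt.card ≤ 4 ∧ ∀ ξ : Qb, ξ ∈ Rt ↔ Gq (A0 : Qb) (B0 : Qb) ξ = 0 := by
  classical
  refine ⟨(rootsPoly (A0 : Qb) (B0 : Qb)).roots.toFinset, ?_, fun ξ => ?_⟩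
  · refine (Multiset.toFinset_card_le _).trans ((card_roots' _).trans ?_)
    rw [roots_natDegree]
  · rw [Multiset.mem_toFinset, mem_roots (roots_monic _ _).ne_zero, IsRoot.def, roots_eval]

/-- `Gq A0 B0` splits over `ℚ̄`. -/
theorem exists_Gq_eq_prod (A0 B0 : ℤ) :
    ∃ s : Multiset Qb, (∀ ξ ∈ s, Gq (A0 : Qb) (B0 : Qb) ξ = 0) ∧
      ∀ x : Qb, Gq (A0 : Qb) (B0 : Qb) x = (s.map (fun ξ => x - ξ)).prod := by
  refine ⟨(rootsPoly (A0 : Qb) (B0 : Qb)).roots, fun ξ hξ => ?_, fun x => ?_⟩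
  · rw [mem_roots (roots_monic _ _).ne_zero, IsRoot.def, roots_eval] at hξ
    exact hξ
  · rw [← roots_eval]
    exact (IsAlgClosed.splits (rootsPoly (A0 : Qb) (B0 : Qb))).eval_eq_prod_roots_of_monic
      (roots_monic _ _) x

/-- the integer roots form a finite set. -/
theorem exists_int_roots_finset (A0 B0 : ℤ) :
    ∃ Rt : Finset ℤ, ∀ r : ℤ, r ∈ Rt ↔ Gq A0 B0 r = 0 := by
  refine ⟨(rootsPoly A0 B0).roots.toFinset, fun r => ?_⟩
  rw [Multiset.mem_toFinset, mem_roots (roots_monic _ _).ne_zero, IsRoot.def, roots_eval]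

end Fermat.Agent.S52.Irr
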