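import Fermat.Agent.S52.Irr.Roots
import Fermat.Agent.S52.Irr.Perm

/-!
# S52 / IRR, leaf L6a-Sigma: an element of `G_ℚ` whose fixed roots of `Gq A0 B0` are the integers

`Rt` from `exists_roots_finset`, `(r0 : Qb) ∈ Rt`.  `Z :=` the roots that are not integers
(`Rt.filter`, classical), `Z ⊆ Rt.erase r0`, `card ≤ 3`.  `G_ℚ` acts by `g • x = g x`
(`AlgEquiv.smul_def`), preserves the roots (apply `g` to the equation; `map_intCast`) and the integers
(`g ξ = r → ξ = g.symm r = r`).  A root fixed by all of `G_ℚ` is rational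
(`InfiniteGalois.mem_range_algebraMap_iff_fixed`, see `Fermat.Agent.S51.exists_rat_of_fixed` in
S51/Galois.lean for the 4 lines; do not import S51), and a rational number integral over `ℤ` is an
integer (`IsIntegrallyClosed.isIntegral_iff`, `isIntegral_algebraMap_iff`).  Conclude with
`exists_fixedPointFree`.
-/

set_option autoImplicit false

namespace Fermat.Agent.S52.Irr

open Polynomial

local notation "Qb" => AlgebraicClosure ℚ

/-- a root fixed by all of `G_ℚ` is an integer. -/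
theorem exists_int_of_fixed_root (A0 B0 : ℤ) (ξ : Qb) (hξ : Gq (A0 : Qb) (B0 : Qb) ξ = 0)
    (hfix : ∀ g : Qb ≃ₐ[ℚ] Qb, g ξ = ξ) : ∃ r : ℤ, ξ = (r : Qb) := by
  have h1 : Algebra.IsAlgebraic ℚ Qb := AlgebraicClosure.isAlgebraic ℚ
  have h2 : IsAlgClosure ℚ Qb := ⟨inferInstance, h1⟩
  have h3 : IsGalois ℚ Qb := {}
  obtain ⟨q, hq⟩ := (InfiniteGalois.mem_range_algebraMap_iff_fixed ξ).2 hfix
  have hint : IsIntegral ℤ ξ := isIntegral_of_Gq_eq_zero A0 B0 ξ hξ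
  rw [← hq] at hint
  have hint' : IsIntegral ℤ q := (isIntegral_algebraMap_iff (algebraMap ℚ Qb).injective).1 hint
  obtain ⟨r, hr⟩ := IsIntegrallyClosed.isIntegral_iff.1 hint'
  refine ⟨r, ?_⟩
  rw [← hq, ← hr]
  simp

theorem exists_sigma (A0 B0 r0 : ℤ) (hr0 : Gq A0 B0 r0 = 0) :
    ∃ g : Qb ≃ₐ[ℚ] Qb, ∀ ξ : Qb, Gq (A0 : Qb) (B0 : Qb) ξ = 0 → g ξ = ξ →
      ∃ r : ℤ, ξ = (r : Qb) := by
  classical
  obtain ⟨Rt, hcard, hRt⟩ := exists_roots_finset A0 B0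
  have hr0' : ((r0 : ℤ) : Qb) ∈ Rt := by
    rw [hRt]
    have := congrArg (Int.cast : ℤ → Qb) hr0
    simpa [Gq] using this
  set Z := Rt.filter (fun ξ => ¬ ∃ r : ℤ, ξ = (r : Qb)) with hZ
  have hZsub : Z ⊆ Rt.erase (r0 : Qb) := by
    intro ξ hξ
    rw [hZ, Finset.mem_filter] at hξ
    rw [Finset.mem_erase]
    exact ⟨fun h => hξ.2 ⟨r0, h⟩, hξ.1⟩
  have hZcard : Z.card ≤ 3 := by
    have h1 := Finset.card_le_card hZsub
    rw [Finset.card_erase_of_mem hr0'] at h1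
    omega
  have hroot : ∀ (g : Qb ≃ₐ[ℚ] Qb) (ξ : Qb), Gq (A0 : Qb) (B0 : Qb) ξ = 0 →
      Gq (A0 : Qb) (B0 : Qb) (g ξ) = 0 := by
    intro g ξ hξ
    have := congrArg g hξ
    simpa [Gq, map_ofNat] using this
  have hstab : ∀ g : Qb ≃ₐ[ℚ] Qb, ∀ x ∈ Z, g • x ∈ Z := by
    intro g x hx
    rw [hZ, Finset.mem_filter] at hx ⊢
    rw [AlgEquiv.smul_def]
    refine ⟨(hRt _).2 (hroot g x ((hRt x).1 hx.1)), ?_⟩
    rintro ⟨r, hr⟩
    apply hx.2
    refine ⟨r, ?_⟩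
    have := congrArg g.symm hr
    simpa using this
  have hno : ∀ x ∈ Z, ∃ g : Qb ≃ₐ[ℚ] Qb, g • x ≠ x := by
    intro x hx
    rw [hZ, Finset.mem_filter] at hx
    by_contra hcon
    push Not at hcon
    exact hx.2 (exists_int_of_fixed_root A0 B0 x ((hRt x).1 hx.1) hcon)
  obtain ⟨g, hg⟩ := exists_fixedPointFree Z hZcard hstab hno
  refine ⟨g, fun ξ hξ hgξ => ?_⟩
  by_contra hcon
  exact hg ξ (by rw [hZ, Finset.mem_filter]; exact ⟨(hRt ξ).2 hξ, hcon⟩) hgξ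

end Fermat.Agent.S52.Irr
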